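import Mathlib
import Fermat.Agent.S32.HopfClosure

/-!
# (K-P), step 0: values, the connected subgroup and locality of function-level Hopf orders

Frame: `Fermat.Agent.S32.HopfClosure.IsHopfOrder κ act H` (a module-finite `R`-subalgebra `H` of
`T → K` made of `Γ`-equivariant functions, separating points, stable under the comultiplication
of the finite abelian group `T`), together with a valuation subring `O` of `K` containing the
image of `R`.  We write `v = O.valuation`; `v x ≤ 1` means `x ∈ O` and `v x < 1` means that `x`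
lies in the maximal ideal of `O`.

* `val_mem` : the values of the functions of `H` lie in `O`;
* `G0` : the *connected subgroup* `{s | ∀ f ∈ H, v (f s - f 0) < 1}`, an additive subgroup of `T`,
  stable under `Γ` as soon as `Γ` preserves the maximal ideal;
* `act_sub_mem_conn` : if `Γ` acts trivially on the residue field (`Γ` = inertia), then
  `act σ s - s ∈ G0` for all `s`;
* `IsLocal` : all of `T` is connected; inheritance by restrictions (`IsLocal.map_pullback`,
  `isLocal_restrict_G0`) and by quotients (`IsLocal.comap_pullback`).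
-/

namespace Fermat.Agent.S15.P.Connected

open Fermat.Agent.S32.HopfClosure

section Val

variable {K : Type*} [Field K] (O : ValuationSubring K)

theorem val_mul_lt_left {x y : K} (hx : O.valuation x < 1) (hy : O.valuation y ≤ 1) :
    O.valuation (x * y) < 1 := by
  rw [map_mul]
  calc O.valuation x * O.valuation y ≤ O.valuation x * 1 := mul_le_mul_right hy _
    _ = O.valuation x := mul_one _
    _ < 1 := hx

theorem val_mul_lt_right {x y : K} (hx : O.valuation x ≤ 1) (hy : O.valuation y < 1) :
    O.valuation (x * y) < 1 := by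
  rw [mul_comm]
  exact val_mul_lt_left O hy hx

theorem val_mul_le {x y : K} (hx : O.valuation x ≤ 1) (hy : O.valuation y ≤ 1) :
    O.valuation (x * y) ≤ 1 := by
  rw [map_mul]
  exact Left.mul_le_one hx hy

theorem val_sum_lt {ι : Type*} (s : Finset ι) {f : ι → K} (hf : ∀ i ∈ s, O.valuation (f i) < 1) :
    O.valuation (∑ i ∈ s, f i) < 1 :=
  Valuation.map_sum_lt _ one_ne_zero hf

theorem val_sum_le {ι : Type*} (s : Finset ι) {f : ι → K} (hf : ∀ i ∈ s, O.valuation (f i) ≤ 1) :
    O.valuation (∑ i ∈ s, f i) ≤ 1 :=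
  Valuation.map_sum_le _ hf

/-- elements integral over a ring mapping into `O` lie in `O` -/
theorem mem_of_isIntegral {R : Type*} [CommRing R] [Algebra R K]
    (hRO : ∀ r : R, algebraMap R K r ∈ O) {x : K} (hx : IsIntegral R x) : x ∈ O := by
  obtain ⟨p, hp, hpx⟩ := hx
  let φ : R →+* O := (algebraMap R K).codRestrict O hRO
  have hφ : (algebraMap O K).comp φ = algebraMap R K := by
    ext r
    rfl
  have hint : IsIntegral O x := ⟨p.map φ, hp.map φ, by
    rw [Polynomial.eval₂_map, hφ]
    exact hpx⟩
  obtain ⟨y, hy⟩ := (IsIntegrallyClosed.isIntegral_iff (R := O) (K := K)).1 hint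
  rw [← hy]
  exact y.2

end Val

section Order

variable {R K Γ : Type*} [CommRing R] [Field K] [Algebra R K] {κ : Γ → K →+* K}
variable (O : ValuationSubring K)
variable {T : Type*} [AddCommGroup T] {act : Γ → T → T} {H : Subalgebra R (T → K)}

/-- the values of the functions of a Hopf order are integral -/
theorem val_mem (hH : IsHopfOrder κ act H) (hRO : ∀ r : R, algebraMap R K r ∈ O) :
    ∀ f ∈ H, ∀ t, f t ∈ O := by
  intro f hf t
  have : Module.Finite R H := hH.fg
  have h1 : IsIntegral R (⟨f, hf⟩ : H) := IsIntegral.of_finite R _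
  have h2 : IsIntegral R f := h1.map H.val
  have h3 : IsIntegral R (f t) := h2.map (Pi.evalAlgHom R (fun _ : T => K) t)
  exact mem_of_isIntegral O hRO h3

theorem val_le_one (hH : IsHopfOrder κ act H)
    (hRO : ∀ r : R, algebraMap R K r ∈ O) {f : T → K} (hf : f ∈ H) (t : T) :
    O.valuation (f t) ≤ 1 :=
  (O.valuation_le_one_iff _).2 (val_mem O hH hRO f hf t)

/-- the connected part, as a set -/
def conn (H : Subalgebra R (T → K)) : Set T := {s | ∀ f ∈ H, O.valuation (f s - f 0) < 1}

theorem mem_conn {s : T} : s ∈ conn O H ↔ ∀ f ∈ H, O.valuation (f s - f 0) < 1 := Iff.rfl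

theorem zero_mem_conn : (0 : T) ∈ conn O H := fun f _ => by
  rw [sub_self, map_zero]
  exact zero_lt_one

theorem add_mem_conn (hH : IsHopfOrder κ act H)
    (hRO : ∀ r : R, algebraMap R K r ∈ O) {s t : T} (hs : s ∈ conn O H) (ht : t ∈ conn O H) :
    s + t ∈ conn O H := by
  intro f hf
  obtain ⟨ι, _, a, b, ha, hb, hab'⟩ := hH.comul f hf
  have hab : ∀ s t, f (s + t) = ∑ i, a i s * b i t := hab'
  have h1 : f (s + t) - f 0
      = ∑ i, ((a i s - a i 0) * b i t + a i 0 * (b i t - b i 0)) := by
    have h0 : f 0 = ∑ i, a i 0 * b i 0 := by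
      have := hab 0 0
      simpa using this
    rw [h0, hab s t, ← Finset.sum_sub_distrib]
    exact Finset.sum_congr rfl fun i _ => by ring
  rw [h1]
  refine val_sum_lt O _ fun i _ => Valuation.map_add_lt _ ?_ ?_
  · exact val_mul_lt_left O (hs _ (ha i)) (val_le_one O hH hRO (hb i) t)
  · exact val_mul_lt_right O (val_le_one O hH hRO (ha i) 0) (ht _ (hb i))

theorem neg_mem_conn [Finite T] (hH : IsHopfOrder κ act H) {s : T}
    (hs : s ∈ conn O H) : -s ∈ conn O H := by
  intro f hf
  have := hs _ (hH.neg_mem f hf)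
  simpa using this

/-- **the connected subgroup** of a Hopf order -/
def G0 [Finite T] (hH : IsHopfOrder κ act H) (hRO : ∀ r : R, algebraMap R K r ∈ O) :
    AddSubgroup T where
  carrier := conn O H
  zero_mem' := zero_mem_conn O
  add_mem' := fun hs ht => add_mem_conn O hH hRO hs ht
  neg_mem' := fun hs => neg_mem_conn O hH hs

theorem mem_G0 [Finite T] (hH : IsHopfOrder κ act H) (hRO : ∀ r : R, algebraMap R K r ∈ O)
    {s : T} : s ∈ G0 O hH hRO ↔ ∀ f ∈ H, O.valuation (f s - f 0) < 1 := Iff.rfl

/-- the connected subgroup is stable under `Γ` when `Γ` preserves the maximal ideal of `O` -/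
theorem act_mem_conn (hH : IsHopfOrder κ act H) (hact0 : ∀ σ, act σ 0 = 0)
    (hκm : ∀ σ x, O.valuation x < 1 → O.valuation (κ σ x) < 1) (σ : Γ) {s : T}
    (hs : s ∈ conn O H) : act σ s ∈ conn O H := by
  intro f hf
  have h0 : f 0 = κ σ (f 0) := by
    have := hH.equiv f hf σ 0
    rwa [hact0] at this
  rw [hH.equiv f hf σ s, h0, ← map_sub]
  exact hκm σ _ (hs f hf)

/-- if `Γ` acts trivially on the residue field of `O`, it preserves the maximal ideal -/
theorem val_map_lt_of_inertia
    (hI : ∀ σ, ∀ x, O.valuation x ≤ 1 → O.valuation (κ σ x - x) < 1) (σ : Γ) (x : K)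
    (hx : O.valuation x < 1) : O.valuation (κ σ x) < 1 := by
  have : κ σ x = (κ σ x - x) + x := by ring
  rw [this]
  exact Valuation.map_add_lt _ (hI σ x hx.le) hx

/-- **`Γ` acts trivially on `T / G0`** when `Γ` acts trivially on the residue field -/
theorem act_sub_mem_conn [Finite T] (hH : IsHopfOrder κ act H)
    (hRO : ∀ r : R, algebraMap R K r ∈ O)
    (hI : ∀ σ, ∀ x, O.valuation x ≤ 1 → O.valuation (κ σ x - x) < 1) (σ : Γ) (s : T) :
    act σ s - s ∈ conn O H := by
  intro f hf
  obtain ⟨ι, _, a, b, ha, hb, hab'⟩ := hH.comul f hf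
  have hab : ∀ s t, f (s + t) = ∑ i, a i s * b i t := hab'
  have h0 : f 0 = ∑ i, a i s * b i (-s) := by
    have := hab s (-s)
    simpa using this
  have h1 : f (act σ s - s) = ∑ i, κ σ (a i s) * b i (-s) := by
    rw [sub_eq_add_neg, hab]
    exact Finset.sum_congr rfl fun i _ => by rw [hH.equiv _ (ha i)]
  rw [h1, h0, ← Finset.sum_sub_distrib]
  refine val_sum_lt O _ fun i _ => ?_
  rw [← sub_mul]
  exact val_mul_lt_left O (hI σ _ (val_le_one O hH hRO (ha i) s))
    (val_le_one O hH hRO (hb i) (-s))

/-- a Hopf order is *local* (connected) when every point is congruent to the origin -/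
def IsLocal (H : Subalgebra R (T → K)) : Prop := ∀ f ∈ H, ∀ s, O.valuation (f s - f 0) < 1

variable {O}

/-- locality passes to restrictions along additive maps -/
theorem isLocal_map_pullback {T' : Type*} [AddCommGroup T'] (g : T' →+ T)
    (hloc : ∀ f ∈ H, ∀ s', O.valuation (f (g s') - f 0) < 1) :
    IsLocal O (H.map (pullback R g)) := by
  rintro _ ⟨f, hf, rfl⟩ s'
  have := hloc f hf s'
  simpa using this

theorem IsLocal.map_pullback {T' : Type*} [AddCommGroup T'] (hloc : IsLocal O H) (g : T' →+ T) :
    IsLocal O (H.map (pullback R g)) :=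
  isLocal_map_pullback g fun f hf s' => hloc f hf (g s')

/-- locality passes to quotients -/
theorem IsLocal.comap_pullback {T'' : Type*} [AddCommGroup T''] (hloc : IsLocal O H)
    (q : T →+ T'') (hq : Function.Surjective q) : IsLocal O (H.comap (pullback R q)) := by
  intro ψ hψ x
  obtain ⟨t, rfl⟩ := hq x
  have := hloc _ hψ t
  simpa using this

/-- the restriction of a Hopf order to its connected subgroup is local -/
theorem isLocal_restrict_G0 [Finite T] (hH : IsHopfOrder κ act H)
    (hRO : ∀ r : R, algebraMap R K r ∈ O) :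
    IsLocal O (H.map (pullback R (G0 O hH hRO).subtype)) :=
  isLocal_map_pullback _ fun f hf s' => s'.2 f hf

end Order

end Fermat.Agent.S15.P.Connected
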