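import Mathlib
import Fermat.Agent.S32.HopfClosure
import Fermat.Agent.S15.P.Connected

/-!
# (K-P), step 1: the normalised integral of a connected Hopf order is integral

`IsInt O H` : for every `f ∈ H`, `v (∑ t, f t) ≤ v |T|`, i.e. the normalised integral
`f ↦ (1/|T|) ∑ t, f t` maps `H` into the valuation ring `O`.

* `isInt_of_card` : a local Hopf order on a group of order `1` or `P` has `IsInt`, whatever the
  action of `Γ` (the sum over the whole group is `Γ`-fixed, lies in the maximal ideal, and the base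
  is unramified);
* `isInt_of_subgroup_quotient` : `IsInt` for the restriction to a `Γ`-stable subgroup `A` and for
  the quotient order on `T ⧸ A` give `IsInt` on `T` (no splitting, no saturation);
* `isInt_restrict_of_chain` : induction along a `Γ`-stable chain `⊥ = Fl 0 ≤ … ≤ Fl n` with
  successive indices `1` or `P`, on which `H` is local.
-/

namespace Fermat.Agent.S15.P.Integral

open Fermat.Agent.S32.HopfClosure Fermat.Agent.S15.P.Connected

/-- the arithmetic frame: `R ⊆ F ⊆ K`, `F` the fixed field of `Γ`, `O` a valuation ring of `K`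
with `O ∩ F = R`, `Γ` acting trivially on the residue field, `P` generating the maximal ideal of
`R`. -/
structure OFrame (R F : Type*) {K Γ : Type*} [CommRing R] [Field F] [Field K] [Algebra R F]
    [Algebra F K] [Algebra R K] (κ : Γ → K →+* K) (O : ValuationSubring K) (P : ℕ) : Prop where
  fix : ∀ x : K, (∀ σ, κ σ x = x) → x ∈ Set.range (algebraMap F K)
  le : ∀ r : R, algebraMap R K r ∈ O
  sat : ∀ x : F, algebraMap F K x ∈ O → x ∈ Set.range (algebraMap R F)
  inertia : ∀ σ x, O.valuation x ≤ 1 → O.valuation (κ σ x - x) < 1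
  unif_lt : O.valuation (P : K) < 1
  unif : ∀ x : F, O.valuation (algebraMap F K x) < 1 →
    O.valuation (algebraMap F K x) ≤ O.valuation (P : K)

section Main

variable {R F K Γ : Type*} [CommRing R] [Field F] [Field K] [Algebra R F] [Algebra F K]
  [Algebra R K] [IsScalarTower R F K] {κ : Γ → K →+* K} {O : ValuationSubring K} {P : ℕ}

theorem OFrame.exists_algebraMap_eq (Fr : OFrame R F κ O P) {x : K} (hfix : ∀ σ, κ σ x = x)
    (hx : O.valuation x ≤ 1) : ∃ r : R, algebraMap R K r = x := by
  obtain ⟨y, rfl⟩ := Fr.fix x hfix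
  obtain ⟨r, rfl⟩ := Fr.sat y ((O.valuation_le_one_iff _).1 hx)
  exact ⟨r, IsScalarTower.algebraMap_apply R F K r⟩

variable (O) in
/-- the normalised integral `(1/|T|) ∑ t, f t` is integral on `H` -/
def IsInt {T : Type*} (H : Subalgebra R (T → K)) : Prop :=
  ∀ f ∈ H, O.valuation (∑ᶠ t, f t) ≤ O.valuation (Nat.card T : K)

theorem isInt_iff {T : Type*} [Fintype T] (H : Subalgebra R (T → K)) :
    IsInt O H ↔ ∀ f ∈ H, O.valuation (∑ t, f t) ≤ O.valuation (Fintype.card T : K) := by
  unfold IsInt
  simp only [finsum_eq_sum_of_fintype, Nat.card_eq_fintype_card]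

variable {T : Type*} [AddCommGroup T] {act : Γ → T → T} {H : Subalgebra R (T → K)}

omit [IsScalarTower R F K] in
/-- **base case**: a local Hopf order on a group of order `1` or `P`. -/
theorem isInt_of_card (Fr : OFrame R F κ O P) [Finite T] (hH : IsHopfOrder κ act H)
    (hbij : ∀ σ, Function.Bijective (act σ)) (hloc : IsLocal O H)
    (hcard : Nat.card T = 1 ∨ Nat.card T = P) : IsInt O H := by
  classical
  cases nonempty_fintype T
  intro f hf
  rw [finsum_eq_sum_of_fintype]
  rcases hcard with h1 | hP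
  · have : Subsingleton T := (Nat.card_eq_one_iff_unique.1 h1).1
    rw [Fintype.sum_subsingleton _ (0 : T), h1, Nat.cast_one, map_one]
    exact val_le_one O hH Fr.le hf 0
  · have hfix : ∀ σ, κ σ (∑ t, f t) = ∑ t, f t := by
      intro σ
      rw [map_sum, ← Function.Bijective.sum_comp (hbij σ) f]
      exact Finset.sum_congr rfl fun t _ => (hH.equiv f hf σ t).symm
    obtain ⟨x, hx⟩ := Fr.fix _ hfix
    have hlt : O.valuation (∑ t, f t) < 1 := by
      have : ∑ t, f t = ∑ t, (f t - f 0) + (P : K) * f 0 := by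
        rw [Finset.sum_sub_distrib, Finset.sum_const, Finset.card_univ,
          ← Nat.card_eq_fintype_card, hP, nsmul_eq_mul]
        ring
      rw [this]
      exact Valuation.map_add_lt _ (val_sum_lt O _ fun t _ => hloc f hf t)
        (val_mul_lt_left O Fr.unif_lt (val_le_one O hH Fr.le hf 0))
    rw [hP, ← hx]
    exact Fr.unif x (hx ▸ hlt)

/-- **the extension step**: `IsInt` for the restriction to a stable subgroup and for the quotient
order give `IsInt`. -/
theorem isInt_of_subgroup_quotient (Fr : OFrame R F κ O P) [CharZero K] [Finite T]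
    (hH : IsHopfOrder κ act H) (hinj : ∀ σ, Function.Injective (act σ))
    (A : AddSubgroup T) (hA : ∀ σ, ∀ a ∈ A, act σ a ∈ A)
    (hIntA : IsInt O (H.map (pullback R A.subtype)))
    (hIntQ : IsInt O (H.comap (pullback R (QuotientAddGroup.mk' A)))) : IsInt O H := by
  classical
  cases nonempty_fintype T
  intro f hf
  obtain ⟨ι, _, a, b, ha, hb, hab'⟩ := hH.comul f hf
  have hab : ∀ s t, f (s + t) = ∑ i, a i s * b i t := hab'
  set q := QuotientAddGroup.mk' A with hq
  have hqs : Function.Surjective q := QuotientAddGroup.mk'_surjective A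
  set N : K := (Nat.card A : K) with hN
  have hN0 : N ≠ 0 := Nat.cast_ne_zero.2 Nat.card_pos.ne'
  have hvN : 0 < O.valuation N := (Valuation.pos_iff _).2 hN0
  set β : ι → K := fun i => ∑ x : A, b i x with hβ
  have hβv : ∀ i, O.valuation (β i) ≤ O.valuation N := by
    intro i
    have := hIntA _ ⟨b i, hb i, rfl⟩
    rw [finsum_eq_sum_of_fintype] at this
    exact this
  have hβfix : ∀ i σ, κ σ (β i) = β i := by
    intro i σ
    simp only [hβ, map_sum]
    have hbijA : Function.Bijective (fun x : A => (⟨act σ x, hA σ x x.2⟩ : A)) := by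
      rw [← Finite.injective_iff_bijective]
      intro x y h
      exact Subtype.ext (hinj σ (congrArg Subtype.val h))
    rw [← Function.Bijective.sum_comp hbijA (fun x : A => b i x)]
    exact Finset.sum_congr rfl fun x _ => (hH.equiv _ (hb i) σ x).symm
  have hc : ∀ i, ∃ r : R, algebraMap R K r = β i / N := by
    intro i
    apply Fr.exists_algebraMap_eq
    · intro σ
      rw [map_div₀, hβfix, hN, map_natCast]
    · rw [map_div₀]
      exact (div_le_one₀ hvN).2 (hβv i)
  choose r hr using hc
  set g : T → K := ∑ i, r i • a i with hg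
  have hgH : g ∈ H := H.sum_mem fun i _ => H.smul_mem (ha i) _
  have hgval : ∀ s, N * g s = ∑ x : A, f (s + x) := by
    intro s
    have hgs : g s = ∑ i, β i / N * a i s := by
      rw [hg, Finset.sum_apply]
      refine Finset.sum_congr rfl fun i _ => ?_
      rw [Pi.smul_apply, Algebra.smul_def, hr]
    rw [hgs, Finset.mul_sum]
    simp only [hab]
    rw [Finset.sum_comm]
    refine Finset.sum_congr rfl fun i _ => ?_
    rw [← mul_assoc, mul_div_cancel₀ _ hN0, hβ, Finset.sum_mul]
    exact Finset.sum_congr rfl fun x _ => mul_comm _ _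
  have hginv : ∀ s s', q s = q s' → g s = g s' := by
    intro s s' h
    have hmem : -s + s' ∈ A := QuotientAddGroup.eq.1 h
    apply mul_left_cancel₀ hN0
    rw [hgval, hgval]
    have h1 : ∀ x : A, f (s' + x) = f (s + ((Equiv.addLeft (⟨-s + s', hmem⟩ : A)) x : A)) := by
      intro x
      congr 1
      simp only [Equiv.coe_addLeft, AddSubgroup.coe_add]
      abel
    rw [Finset.sum_congr rfl fun x _ => h1 x]
    exact (Equiv.sum_comp (Equiv.addLeft (⟨-s + s', hmem⟩ : A)) (fun x : A => f (s + x))).symm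
  obtain ⟨ψ, hψ, hψg⟩ := (mem_map_comap_pullback_iff H hqs g).2 ⟨hgH, hginv⟩
  have hψv := hIntQ ψ hψ
  rw [finsum_eq_sum_of_fintype] at hψv
  have hfib : ∀ s : T, ∑ u ∈ Finset.univ.filter (fun u => q u = q s), f u = N * ψ (q s) := by
    intro s
    have h1 : ψ (q s) = g s := congrFun hψg s
    rw [h1, hgval]
    symm
    refine Finset.sum_bij (fun x _ => s + (x : T)) ?_ ?_ ?_ ?_
    · intro x _
      simp only [Finset.mem_filter, Finset.mem_univ, true_and]
      rw [hq]
      simp
    · intro x _ y _ h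
      exact Subtype.ext (add_left_cancel h)
    · intro u hu
      simp only [Finset.mem_filter, Finset.mem_univ, true_and] at hu
      refine ⟨⟨-s + u, QuotientAddGroup.eq.1 hu.symm⟩, Finset.mem_univ _, ?_⟩
      simp
    · intro x _
      rfl
  have htotal : ∑ t, f t = N * ∑ x, ψ x := by
    rw [← Finset.sum_fiberwise Finset.univ q f, Finset.mul_sum]
    refine Finset.sum_congr rfl fun x _ => ?_
    obtain ⟨s, rfl⟩ := hqs x
    exact hfib s
  rw [finsum_eq_sum_of_fintype, htotal, map_mul,
    AddSubgroup.card_eq_card_quotient_mul_card_addSubgroup A, Nat.cast_mul, map_mul, mul_comm]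
  gcongr

/-- **one step**: a local Hopf order on `T`, a stable subgroup `A` of index `1` or `P` on which
`IsInt` holds. -/
theorem isInt_of_subgroup (Fr : OFrame R F κ O P) [IsDomain R] [IsPrincipalIdealRing R]
    [IsFractionRing R F] [CharZero K] [Finite T]
    (hH : IsHopfOrder κ act H) (hadd : ∀ σ s t, act σ (s + t) = act σ s + act σ t)
    (hinj : ∀ σ, Function.Injective (act σ)) (hloc : IsLocal O H)
    (A : AddSubgroup T) (hA : ∀ σ, ∀ a ∈ A, act σ a ∈ A)
    (hidx : A.index = 1 ∨ A.index = P)
    (hIntA : IsInt O (H.map (pullback R A.subtype))) : IsInt O H := by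
  have hsurj : ∀ σ, Function.Surjective (act σ) := fun σ =>
    Finite.injective_iff_surjective.1 (hinj σ)
  set q := QuotientAddGroup.mk' A with hq
  have hqs : Function.Surjective q := QuotientAddGroup.mk'_surjective A
  let actHom : Γ → T →+ T := fun σ => AddMonoidHom.mk' (act σ) (hadd σ)
  have hle : ∀ σ, A ≤ A.comap (actHom σ) := fun σ a ha => hA σ a ha
  let act'' : Γ → T ⧸ A → T ⧸ A := fun σ => QuotientAddGroup.map A A (actHom σ) (hle σ)
  have hqact : ∀ σ t, q (act σ t) = act'' σ (q t) := fun σ t => rfl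
  have hH'' : IsHopfOrder κ act'' (H.comap (pullback R q)) :=
    hH.comap_pullback Fr.fix hsurj (fun σ => map_zero _) q hqs hqact
  have hbij'' : ∀ σ, Function.Bijective (act'' σ) := by
    intro σ
    rw [← Finite.surjective_iff_bijective]
    intro x
    obtain ⟨t, rfl⟩ := hqs x
    obtain ⟨t', rfl⟩ := hsurj σ t
    exact ⟨q t', (hqact σ t').symm⟩
  have hIntQ : IsInt O (H.comap (pullback R q)) :=
    isInt_of_card Fr hH'' hbij'' (hloc.comap_pullback q hqs) hidx
  exact isInt_of_subgroup_quotient Fr hH hinj A hA hIntA hIntQ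

/-- **relative step** inside a fixed ambient group. -/
theorem isInt_restrict_step (Fr : OFrame R F κ O P) [IsDomain R] [IsPrincipalIdealRing R]
    [IsFractionRing R F] [CharZero K] [Finite T]
    (hH : IsHopfOrder κ act H) (hadd : ∀ σ s t, act σ (s + t) = act σ s + act σ t)
    (hinj : ∀ σ, Function.Injective (act σ)) (A B : AddSubgroup T) (hAB : A ≤ B)
    (hA : ∀ σ, ∀ a ∈ A, act σ a ∈ A) (hB : ∀ σ, ∀ a ∈ B, act σ a ∈ B)
    (hidx : A.relIndex B = 1 ∨ A.relIndex B = P)
    (hlocB : ∀ f ∈ H, ∀ s ∈ B, O.valuation (f s - f 0) < 1)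
    (hIntA : IsInt O (H.map (pullback R A.subtype))) :
    IsInt O (H.map (pullback R B.subtype)) := by
  let actB : Γ → B → B := fun σ b => ⟨act σ b, hB σ b b.2⟩
  have hHB : IsHopfOrder κ actB (H.map (pullback R B.subtype)) :=
    hH.map_pullback B.subtype Subtype.coe_injective (fun σ t' => rfl)
  have hlocHB : IsLocal O (H.map (pullback R B.subtype)) :=
    isLocal_map_pullback _ (fun f hf s' => hlocB f hf s' s'.2)
  refine isInt_of_subgroup Fr hHB (fun σ s t => Subtype.ext (hadd σ s t))
    (fun σ x y h => Subtype.ext (hinj σ (congrArg Subtype.val h))) hlocHB (A.addSubgroupOf B)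
    (fun σ a ha => hA σ a ha) hidx ?_
  rintro _ ⟨_, ⟨f, hf, rfl⟩, rfl⟩
  have h1 : O.valuation (∑ᶠ y : A, f (y : T)) ≤ O.valuation (Nat.card A : K) :=
    hIntA _ ⟨f, hf, rfl⟩
  let e := AddSubgroup.addSubgroupOfEquivOfLe hAB
  have h2 : (∑ᶠ x : A.addSubgroupOf B, f ((x : B) : T)) = ∑ᶠ y : A, f (y : T) :=
    finsum_comp_equiv e.toEquiv (f := fun y : A => f (y : T))
  change O.valuation (∑ᶠ x : A.addSubgroupOf B, f ((x : B) : T)) ≤ _
  rw [h2, Nat.card_congr e.toEquiv]
  exact h1

/-- **induction along a chain**: `H` is local on `Fl n`, the chain `⊥ = Fl 0 ≤ Fl 1 ≤ … ≤ Fl n` is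
`Γ`-stable with successive indices `1` or `P`. -/
theorem isInt_restrict_of_chain (Fr : OFrame R F κ O P) [IsDomain R] [IsPrincipalIdealRing R]
    [IsFractionRing R F] [CharZero K] [Finite T]
    (hH : IsHopfOrder κ act H) (hadd : ∀ σ s t, act σ (s + t) = act σ s + act σ t)
    (hinj : ∀ σ, Function.Injective (act σ)) (Fl : ℕ → AddSubgroup T) (n : ℕ) (h0 : Fl 0 = ⊥)
    (hmono : ∀ i < n, Fl i ≤ Fl (i + 1))
    (hstab : ∀ i ≤ n, ∀ σ, ∀ s ∈ Fl i, act σ s ∈ Fl i)
    (hidx : ∀ i < n, (Fl i).relIndex (Fl (i + 1)) = 1 ∨ (Fl i).relIndex (Fl (i + 1)) = P)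
    (hloc : ∀ f ∈ H, ∀ s ∈ Fl n, O.valuation (f s - f 0) < 1) :
    ∀ i ≤ n, IsInt O (H.map (pullback R (Fl i).subtype)) := by
  have hle : ∀ j, j ≤ n → ∀ i ≤ j, Fl i ≤ Fl j := by
    intro j
    induction j with
    | zero =>
      intro _ i hi
      rw [Nat.le_zero.1 hi]
    | succ j ih =>
      intro hj i hi
      rcases Nat.of_le_succ hi with h | h
      · exact (ih (Nat.le_of_succ_le hj) i h).trans (hmono j (Nat.lt_of_succ_le hj))
      · rw [h]
  intro i
  induction i with
  | zero =>
    intro _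
    have hsub : Subsingleton (Fl 0) := by
      rw [h0]
      infer_instance
    rintro _ ⟨f, hf, rfl⟩
    cases nonempty_fintype (Fl 0)
    rw [finsum_eq_sum_of_fintype, Fintype.sum_subsingleton _ (0 : Fl 0),
      Nat.card_of_subsingleton (0 : Fl 0), Nat.cast_one, map_one]
    exact val_le_one O hH Fr.le hf _
  | succ i ih =>
    intro hi
    exact isInt_restrict_step Fr hH hadd hinj (Fl i) (Fl (i + 1)) (hmono i hi)
      (hstab i (Nat.le_of_succ_le hi)) (hstab (i + 1) hi) (hidx i hi)
      (fun f hf s hs => hloc f hf s (hle n le_rfl (i + 1) hi hs)) (ih (Nat.le_of_succ_le hi))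

end Main

end Fermat.Agent.S15.P.Integral
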