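import Fermat.Agent.S19.ChartGlue

/-!
# PROJECT M (S15), block (K-P), leaf `ChartLocal` (helper16)

**The chart order of S19 is local on the cosets of the kernel of reduction.**

Abstract frame of `S19/ChartGlue`: `J` with an action of `Γ`, `J1 ≤ J` the kernel of reduction,
`ι : T →+ J`, one chart `coord` on `J1`.  If the coordinates of the points of `J1` are *non-units*
(an additive subgroup `mA` of `K` stable under multiplication by `A`; at `X₀(N)` this is
`S19/CoordK.coordK_mem_nonunits`) and the Frobenius `σ` preserves `A`, `mA` and `J1`, then every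
function `f` of the `W`-order `frobClosure ρ σ (HW0 act J1 ι I coord)` (the `HW` of
`ChartAPI.wOrder`) takes its values in `A` and is constant modulo `mA` on every coset of
`T0 = ι⁻¹ J1`.  In particular the restriction of the order to any subgroup of `T0` is a local
(connected) order.
-/

set_option autoImplicit false
set_option linter.unusedSectionVars false

namespace Fermat.Agent.S15.P.ChartLocal

open Fermat.Agent.S19.ChartGlue Fermat.Agent.S19.OrderGen Fermat.Agent.S19.FrobClosure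

variable {W K Γ T J : Type*} [CommRing W] [Field K] [Algebra W K] [IsNoetherianRing W]
  [IsLocalRing W] [Group Γ] [MulSemiringAction Γ K] [AddCommGroup T] [Finite T] [AddCommGroup J]
variable {OL : Subalgebra W K} [IsLocalRing OL] [Module.Finite W OL]
  [IsLocalHom (algebraMap W OL)]
variable {A : Subalgebra W K} {small : K → Prop} {act : Γ → J → J}
  {J1 : AddSubgroup J} {ι : T →+ J} {ρ : Γ → T → T} {I : Subgroup Γ}
  {g : ℕ} {coord : J → Fin g → K}
  {Ψ : ℕ → Fin g → MvPolynomial (Fin g ⊕ Fin g) W}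

/-- the functions with values in `A` which are constant modulo `mA` on the cosets of `T0` -/
def localAlg (A : Subalgebra W K) (mA : AddSubgroup K) (hmul : ∀ a ∈ A, ∀ x ∈ mA, a * x ∈ mA)
    (T0 : AddSubgroup T) : Subalgebra W (T → K) where
  carrier := {f | (∀ t, f t ∈ A) ∧
    ∀ s s', (QuotientAddGroup.mk s : T ⧸ T0) = QuotientAddGroup.mk s' → f s - f s' ∈ mA}
  mul_mem' := by
    rintro f f' ⟨hf, hf'⟩ ⟨hg, hg'⟩
    refine ⟨fun t => A.mul_mem (hf t) (hg t), fun s s' h => ?_⟩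
    have e : (f * f') s - (f * f') s' = f s * (f' s - f' s') + f' s' * (f s - f s') := by
      simp only [Pi.mul_apply]; ring
    rw [e]
    exact mA.add_mem (hmul _ (hf s) _ (hg' s s' h)) (hmul _ (hg s') _ (hf' s s' h))
  one_mem' := ⟨fun _ => A.one_mem, fun s s' _ => by simp⟩
  add_mem' := by
    rintro f f' ⟨hf, hf'⟩ ⟨hg, hg'⟩
    refine ⟨fun t => A.add_mem (hf t) (hg t), fun s s' h => ?_⟩
    have e : (f + f') s - (f + f') s' = (f s - f s') + (f' s - f' s') := by
      simp only [Pi.add_apply]; ring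
    rw [e]
    exact mA.add_mem (hf' s s' h) (hg' s s' h)
  zero_mem' := ⟨fun _ => A.zero_mem, fun s s' _ => by simp⟩
  algebraMap_mem' := fun w =>
    ⟨fun _ => A.algebraMap_mem w, fun s s' _ => by simp [Algebra.algebraMap_eq_smul_one]⟩

theorem mem_localAlg {A : Subalgebra W K} {mA : AddSubgroup K}
    {hmul : ∀ a ∈ A, ∀ x ∈ mA, a * x ∈ mA} {T0 : AddSubgroup T} {f : T → K} :
    f ∈ localAlg A mA hmul T0 ↔ (∀ t, f t ∈ A) ∧
      ∀ s s', (QuotientAddGroup.mk s : T ⧸ T0) = QuotientAddGroup.mk s' → f s - f s' ∈ mA :=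
  Iff.rfl

/-- the generated algebra `HW0` consists of local functions -/
theorem HW0_le_localAlg (C : ChartAPI OL A small act J1 ι ρ I coord Ψ) (mA : AddSubgroup K)
    (hmul : ∀ a ∈ A, ∀ x ∈ mA, a * x ∈ mA) (hcoord : ∀ z ∈ J1, ∀ i, coord z i ∈ mA) :
    HW0 (W := W) act J1 ι I coord ≤ localAlg A mA hmul (J1.comap ι) := by
  rw [HW0_def]
  change Algebra.adjoin W _ ≤ _
  refine Algebra.adjoin_le ?_
  rintro f (⟨q, rfl⟩ | ⟨ξ, i, rfl⟩)
  · refine ⟨fun t => ?_, fun s s' h => ?_⟩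
    · by_cases ht : (QuotientAddGroup.mk t : T ⧸ (J1.comap ι)) = q
      · rw [ind_eq_one ht]; exact A.one_mem
      · rw [ind_eq_zero ht]; exact A.zero_mem
    · by_cases hs : (QuotientAddGroup.mk s : T ⧸ (J1.comap ι)) = q
      · rw [ind_eq_one hs, ind_eq_one (h ▸ hs), sub_self]; exact mA.zero_mem
      · rw [ind_eq_zero hs, ind_eq_zero (fun h' => hs (h.trans h')), sub_self]
        exact mA.zero_mem
  · refine ⟨fun t => ?_, fun s s' h => ?_⟩
    · by_cases ht : (QuotientAddGroup.mk t : T ⧸ (J1.comap ι)) = ξ.q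
      · rw [Xfun_eq ξ i ht]; exact C.coord_mem _ i (ξ.mem t ht)
      · rw [Xfun_zero ξ i ht]; exact A.zero_mem
    · by_cases hs : (QuotientAddGroup.mk s : T ⧸ (J1.comap ι)) = ξ.q
      · have hs' : (QuotientAddGroup.mk s' : T ⧸ (J1.comap ι)) = ξ.q := h ▸ hs
        rw [Xfun_eq ξ i hs, Xfun_eq ξ i hs']
        exact mA.sub_mem (hcoord _ (ξ.mem s hs) i) (hcoord _ (ξ.mem s' hs') i)
      · have hs' : (QuotientAddGroup.mk s' : T ⧸ (J1.comap ι)) ≠ ξ.q :=
          fun h' => hs (h.trans h')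
        rw [Xfun_zero ξ i hs, Xfun_zero ξ i hs', sub_self]
        exact mA.zero_mem

/-- the Frobenius operator preserves the local functions -/
theorem frobOp_mem_localAlg (C : ChartAPI OL A small act J1 ι ρ I coord Ψ) {σ : Γ}
    (mA : AddSubgroup K) (hmul : ∀ a ∈ A, ∀ x ∈ mA, a * x ∈ mA)
    (hσA : ∀ a ∈ A, σ • a ∈ A) (hσm : ∀ x ∈ mA, σ • x ∈ mA) (hσJ : ∀ x ∈ J1, act σ⁻¹ x ∈ J1)
    {f : T → K} (hf : f ∈ localAlg A mA hmul (J1.comap ι)) :
    frobOp ρ σ f ∈ localAlg A mA hmul (J1.comap ι) := by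
  obtain ⟨hfA, hfm⟩ := hf
  refine ⟨fun t => hσA _ (hfA _), fun s s' h => ?_⟩
  rw [frobOp_apply, frobOp_apply, ← smul_sub]
  refine hσm _ (hfm _ _ ?_)
  rw [QuotientAddGroup.eq_iff_sub_mem] at h ⊢
  rw [AddSubgroup.mem_comap] at h ⊢
  have e : ρ σ⁻¹ s - ρ σ⁻¹ s' = ρ σ⁻¹ (s - s') := by
    rw [sub_eq_iff_eq_add, ← C.ρ_add, sub_add_cancel]
  rw [e, C.ι_ρ]
  exact hσJ _ h

/-- **The chart order is local on the cosets of the kernel of reduction.** -/
theorem local_of_chartAPI (C : ChartAPI OL A small act J1 ι ρ I coord Ψ) {σ : Γ}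
    (mA : AddSubgroup K) (hmul : ∀ a ∈ A, ∀ x ∈ mA, a * x ∈ mA)
    (hcoord : ∀ z ∈ J1, ∀ i, coord z i ∈ mA)
    (hσA : ∀ a ∈ A, σ • a ∈ A) (hσm : ∀ x ∈ mA, σ • x ∈ mA) (hσJ : ∀ x ∈ J1, act σ⁻¹ x ∈ J1) :
    ∀ f ∈ frobClosure ρ σ (HW0 (W := W) act J1 ι I coord),
      (∀ t, f t ∈ A) ∧ ∀ s s', ι s - ι s' ∈ J1 → f s - f s' ∈ mA := by
  intro f hf
  have h := frobClosure_le (HW0_le_localAlg C mA hmul hcoord)
    (fun f hf => frobOp_mem_localAlg C mA hmul hσA hσm hσJ hf) hf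
  refine ⟨h.1, fun s s' hss => h.2 s s' ?_⟩
  rw [QuotientAddGroup.eq_iff_sub_mem, AddSubgroup.mem_comap, map_sub]
  exact hss

/-- on the points of `T0 = ι⁻¹ J1` every function of the order is congruent to its value at `0` -/
theorem sub_zero_mem_of_chartAPI (C : ChartAPI OL A small act J1 ι ρ I coord Ψ) {σ : Γ}
    (mA : AddSubgroup K) (hmul : ∀ a ∈ A, ∀ x ∈ mA, a * x ∈ mA)
    (hcoord : ∀ z ∈ J1, ∀ i, coord z i ∈ mA)
    (hσA : ∀ a ∈ A, σ • a ∈ A) (hσm : ∀ x ∈ mA, σ • x ∈ mA) (hσJ : ∀ x ∈ J1, act σ⁻¹ x ∈ J1)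
    {f : T → K} (hf : f ∈ frobClosure ρ σ (HW0 (W := W) act J1 ι I coord)) {s : T}
    (hs : ι s ∈ J1) : f s - f 0 ∈ mA :=
  (local_of_chartAPI C mA hmul hcoord hσA hσm hσJ f hf).2 s 0 (by rwa [map_zero, sub_zero])

/-- conversely, a point at which every function of the order is congruent to its value at `0`
lies in the kernel of reduction: the indicator of `T0` belongs to the order -/
theorem mem_J1_of_forall_sub_zero_mem (mA : AddSubgroup K) (h1 : (1 : K) ∉ mA) {σ : Γ} {s : T}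
    (h : ∀ f ∈ frobClosure ρ σ (HW0 (W := W) act J1 ι I coord), f s - f 0 ∈ mA) : ι s ∈ J1 := by
  by_contra hs
  have hmem : ind (K := K) (J1.comap ι) (QuotientAddGroup.mk (0 : T)) ∈
      frobClosure ρ σ (HW0 (W := W) act J1 ι I coord) :=
    le_frobClosure (by rw [HW0_def]; exact ind_mem_HWgen _)
  have hne : (QuotientAddGroup.mk s : T ⧸ (J1.comap ι)) ≠ QuotientAddGroup.mk (0 : T) := by
    intro h'
    rw [QuotientAddGroup.eq_iff_sub_mem, sub_zero, AddSubgroup.mem_comap] at h'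
    exact hs h'
  have h2 := h _ hmem
  rw [ind_eq_zero hne, ind_eq_one rfl, zero_sub] at h2
  exact h1 (by simpa using mA.neg_mem h2)

end Fermat.Agent.S15.P.ChartLocal
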