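import Fermat.Agent.S19.ApiX0
import Fermat.Agent.S15.P.ChartLocal

/-!
# PROJECT M (S15), block (K-P), leaf `ChartLocalX0` (helper16)

The chart interface of S19 at `X₀(N)` with its witnesses EXPOSED (`J = JZero N`, `J1 = BaseX0.J1X0`
the kernel of reduction at `A`, `ι` the inclusion of `J₀(N)[ℓ^k]`, `Aalg = A`) and the extra fact
that the coordinates of the kernel of reduction are non-units of `A`; consequence: **the `W A`-order
of S19 on `J₀(N)[ℓ^k]` is local on the cosets of the kernel of reduction** (`exists_local_wOrder`).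
-/

set_option autoImplicit false
set_option synthInstance.maxHeartbeats 400000
set_option linter.unusedSectionVars false
set_option linter.unusedVariables false
set_option linter.style.haveILetI false

noncomputable section

namespace Fermat.Agent.S15.P.ChartLocalX0

open AlgebraicCurve ModularCurve IntermediateField IsLocalRing
open Fermat.Agent.S18.CoreDefs Fermat.Agent.S18.CoreOrd Fermat.Agent.S18.Disc
open Fermat.Agent.S18.NonSpecial Fermat.Agent.S18.NonSpecialAdapter
open Fermat.Agent.S18.C.SmallDVR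
open Fermat.Agent.S19 Fermat.Agent.S19.ApiX0
open Fermat.Agent.S19.FrameX0 Fermat.Agent.S19.SymmX0 Fermat.Agent.S19.ChartX0
open Fermat.Agent.S19.InterpDatum Fermat.Agent.S19.TaylorRat
open Fermat.Agent.S19.TorsionX0 Fermat.Agent.S19.FrobFrameX0 Fermat.Agent.S19.ChartGlue
open Fermat.Agent.S19.IntegralW

local notation "Qbar" => AlgebraicClosure ℚ
local notation "GQ" => (AlgebraicClosure ℚ ≃ₐ[ℚ] AlgebraicClosure ℚ)

variable {ℓ : ℕ} [Fact ℓ.Prime] {N : ℕ} [NeZero N]

set_option maxHeartbeats 2000000 in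
/-- the chart interface at `X₀(N)`, witnesses exposed, with non-unit coordinates -/
theorem exists_chartAPIAt_nonunits (hℓN : ¬ ℓ ∣ N) (k : ℕ) (A : ValuationSubring Qbar)
    (hA : A.LiesOverPrime ℓ) :
    ∃ (g : ℕ) (coord : JZero N → Fin g → Qbar)
      (Ψ : ℕ → Fin g → MvPolynomial (Fin g ⊕ Fin g) ↥(W A)),
      CloseX0.ChartAPIAt A hA N k (IntegralWV.Aalg A) (fun c => c ∈ A.nonunits)
        (fun (τ : GQ) (x : JZero N) => τ • x) (BaseX0.J1X0 N A hA hℓN)
        (T N ((ℓ : ℤ) ^ k)).subtype.toAddMonoidHom coord Ψ ∧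
      ∀ z ∈ BaseX0.J1X0 N A hA hℓN, ∀ i, coord z i ∈ A.nonunits := by
  classical
  haveI := hasPrincipalDivisors_L N
  haveI := hasPrincipalDivisors_k N A
  haveI := finite_T (N := N) (Final.pow_ne_zero_int ℓ k)
  haveI := FrameWX0.isNoetherianRing_W hA
  haveI := finite_OLX (N := N) (Final.pow_ne_zero_int ℓ k) hA
  obtain ⟨g, hL, hk⟩ := exists_genus N A hA hℓN
  have hG : RigidGeneric (ResidueField ↥A) ↥(modularFunctionFieldFullC (ResidueField ↥A) N) g :=
    rigidGeneric_of_riemannHyp hk le_rfl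
  -- the datum
  obtain ⟨d, -, -, hT0, hv0⟩ := DatumExists.exists_datum (redDatumX0 N A hA hℓN) (toA A).range
    (fun γ => by
      obtain ⟨w, hw⟩ := residue_comp_toA_surjective hA γ
      exact ⟨toA A w, ⟨w, rfl⟩, hw⟩)
    (jX0 N A hA hℓN) (finite_not_simple N A hA hℓN) hG ∅ Set.finite_empty
  have hfixW0 : ∀ c : A, c ∈ (toA A).range →
      ∀ σ ∈ A.inertiaSubgroupIn ℚ, σ (c : Qbar) = (c : Qbar) := by
    rintro c ⟨w, rfl⟩ σ hσ
    exact coe_fixed A (w : K0 A) hσ
  have hT : ∀ i, ∃ c : A, (∀ σ ∈ A.inertiaSubgroupIn ℚ, σ (c : Qbar) = (c : Qbar)) ∧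
      d.T i = jX0 N A hA hℓN - constO (redDatumX0 N A hA hℓN) c := fun i => by
    obtain ⟨c, hc, h⟩ := hT0 i
    exact ⟨c, hfixW0 c hc, h⟩
  have hv : ∀ j, ∃ c : A, (∀ σ ∈ A.inertiaSubgroupIn ℚ, σ (c : Qbar) = (c : Qbar)) ∧
      d.v j = jX0 N A hA hℓN - constO (redDatumX0 N A hA hℓN) c := fun j => by
    obtain ⟨c, hc, h⟩ := hv0 j
    exact ⟨c, hfixW0 c hc, h⟩
  obtain ⟨Ψ, hadd⟩ := FixesDatumX0.coord_add_X0 hL hk d hT hv
  have hdegL := deg_eq_one_L N
  have hR : RiemannGe Qbar ↥(modularFunctionFieldBar N) g := riemannGe_of_riemannHyp hL le_rfl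
  have hSL : ∀ w : W A, algebraMap (W A) Qbar w = ((algebraMap (W A) A w : A) : Qbar) :=
    fun w => rfl
  -- the inertial symmetries
  have hin : ∀ {τ : GQ}, τ ∈ A.inertiaSubgroupIn ℚ → ∀ P : Place Qbar ↥(modularFunctionFieldBar N),
      rX0 N A hA hℓN (arithmeticGalois (modularFunctionFieldFull N) τ • P) = rX0 N A hA hℓN P :=
    fun hτ P => rX0_smul_inertia N A hA hℓN hτ P
  have hTfix : ∀ {τ : GQ}, τ ∈ A.inertiaSubgroupIn ℚ → ∀ i,
      arithmeticGalois (modularFunctionFieldFull N) τ •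
        (((ChartDatum.toOriginChart d).T i : ↥(redDatumX0 N A hA hℓN).O) :
          ↥(modularFunctionFieldBar N)) =
        (((ChartDatum.toOriginChart d).T i : ↥(redDatumX0 N A hA hℓN).O) :
          ↥(modularFunctionFieldBar N)) := by
    intro τ hτ i
    obtain ⟨c, hc, hTi⟩ := hT i
    exact FixesDatumX0.smul_param N A hA hℓN (hc τ hτ) hTi
  have hinj : ∀ z z', z ∈ BaseX0.J1X0 N A hA hℓN → z' ∈ BaseX0.J1X0 N A hA hℓN →
      CoordK.coordK (ChartDatum.toOriginChart d) hdegL hR z =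
        CoordK.coordK (ChartDatum.toOriginChart d) hdegL hR z' → z = z' :=
    fun z z' hz hz' h => CoordK.coordK_inj _ hdegL hR hz hz' h
  have hmem : ∀ z i, z ∈ BaseX0.J1X0 N A hA hℓN →
      CoordK.coordK (ChartDatum.toOriginChart d) hdegL hR z i ∈ IntegralWV.Aalg A :=
    fun z i hz => CoordK.coordK_mem _ hdegL hR hz i
  have hcoordI : ∀ τ ∈ A.inertiaSubgroupIn ℚ, ∀ z ∈ BaseX0.J1X0 N A hA hℓN, ∀ i,
      CoordK.coordK (ChartDatum.toOriginChart d) hdegL hR (τ • z) i =
        τ • CoordK.coordK (ChartDatum.toOriginChart d) hdegL hR z i := by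
    intro τ hτ z hz i
    rcases Nat.eq_zero_or_pos g with hg | hg
    · subst hg
      exact i.elim0
    · have hzτ : arithmeticGalois (modularFunctionFieldFull N) τ • z ∈
          Chart.J1 (rX0 N A hA hℓN) := ChartSymm.smul_mem_J1 _ (hin hτ) hz
      have h1 := ChartSymm.coord_smul (ChartDatum.toOriginChart d) hdegL
        IsLocalRing.residue_surjective hR (ChartDatum.exists_off d hg)
        (arithmeticGalois (modularFunctionFieldFull N) τ) (hin hτ) (hTfix hτ) ⟨z, hz⟩ i
      rw [baseAut_arithmeticGalois_apply] at h1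
      show CoordK.coordK (ChartDatum.toOriginChart d) hdegL hR
        (arithmeticGalois (modularFunctionFieldFull N) τ • z) i =
          τ (CoordK.coordK (ChartDatum.toOriginChart d) hdegL hR z i)
      rw [CoordK.coordK_of_mem _ hdegL hR hzτ, CoordK.coordK_of_mem _ hdegL hR hz]
      exact h1
  have hcadd : ∀ z z', z ∈ BaseX0.J1X0 N A hA hℓN → z' ∈ BaseX0.J1X0 N A hA hℓN →
      ∃ c : Qbar, c ∈ A.nonunits ∧ ∀ (n : ℕ) (i : Fin g), ∃ a ∈ IntegralWV.Aalg A,
        CoordK.coordK (ChartDatum.toOriginChart d) hdegL hR (z + z') i -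
          MvPolynomial.aeval (Sum.elim (CoordK.coordK (ChartDatum.toOriginChart d) hdegL hR z)
            (CoordK.coordK (ChartDatum.toOriginChart d) hdegL hR z')) (Ψ n i) = c ^ n * a :=
    fun z z' hz hz' =>
      CoordK.coordK_add (ChartDatum.toOriginChart d) hdegL hR hSL Ψ hadd hz hz'
  refine ⟨g, CoordK.coordK (ChartDatum.toOriginChart d) hdegL hR, Ψ, ?_,
    fun z hz i => CoordK.coordK_mem_nonunits _ hdegL hR hz i⟩
  unfold CloseX0.ChartAPIAt
  refine
    { ρ_add := rhoX0_add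
      ρ_mul := rhoX0_mul
      ρ_one := rhoX0_one
      act_add := ?_
      ι_inj := ?_
      ι_ρ := ?_
      fixW := ?_
      J1_I := ?_
      coord_inj := ?_
      coord_mem := ?_
      coord_I := ?_
      AI := ?_
      base := ?_
      hOL := ?_
      small_mem := ?_
      V := ?_
      coord_add := ?_ }
  · exact fun τ x y => smul_add τ x y
  · exact Subtype.val_injective
  · exact fun τ t => rfl
  · exact fun τ hτ w => FrobFrameX0.fixW hτ w
  · exact fun τ hτ x => BaseX0.J1_inertia N A hA hℓN hτ x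
  · exact hinj
  · exact hmem
  · exact hcoordI
  · exact fun a ha hfix => IntegralWV.AI ha hfix
  · exact fun x => BaseX0.base N A hA hℓN x
  · exact fun a ha h => OLX0.mem_OL_of_fixed ha h
  · exact fun c hc => IntegralWV.small_mem hc
  · exact fun c hc b => IntegralWV.V_Aalg _ hA c hc b
  · exact hcadd


/-! ### The non-units of `A` -/

/-- the non-units of `A` as an additive subgroup of `ℚ̄` -/
def nonunitsAddSubgroup (A : ValuationSubring Qbar) : AddSubgroup Qbar where
  carrier := {x | x ∈ A.nonunits}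
  add_mem' := fun {x y} (hx : x ∈ A.nonunits) (hy : y ∈ A.nonunits) =>
    show x + y ∈ A.nonunits by
      rw [ValuationSubring.mem_nonunits_iff] at *
      exact Valuation.map_add_lt _ hx hy
  zero_mem' := show (0 : Qbar) ∈ A.nonunits by
    rw [ValuationSubring.mem_nonunits_iff, map_zero]
    exact zero_lt_one
  neg_mem' := fun {x} (hx : x ∈ A.nonunits) =>
    show -x ∈ A.nonunits by
      rw [ValuationSubring.mem_nonunits_iff, Valuation.map_neg] at *
      exact hx

theorem mem_nonunitsAddSubgroup {A : ValuationSubring Qbar} {x : Qbar} :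
    x ∈ nonunitsAddSubgroup A ↔ x ∈ A.nonunits := Iff.rfl

theorem mul_mem_nonunits {A : ValuationSubring Qbar} {a x : Qbar} (ha : a ∈ A)
    (hx : x ∈ A.nonunits) : a * x ∈ A.nonunits := by
  rw [ValuationSubring.mem_nonunits_iff] at *
  rw [map_mul]
  exact mul_lt_one_of_nonneg_of_lt_one_right ((A.valuation_le_one_iff a).2 ha) zero_le hx

theorem mem_nonunits_iff_inv (A : ValuationSubring Qbar) (x : Qbar) :
    x ∈ A.nonunits ↔ x = 0 ∨ x⁻¹ ∉ A := by
  rw [ValuationSubring.mem_nonunits_iff]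
  by_cases hx : x = 0
  · subst hx; simp
  · simp only [hx, false_or]
    rw [← A.valuation_le_one_iff, map_inv₀, not_le]
    have h0 : A.valuation x ≠ 0 := (Valuation.ne_zero_iff _).2 hx
    exact ⟨fun h => (one_lt_inv₀ (zero_lt_iff.2 h0)).2 h,
      fun h => (one_lt_inv₀ (zero_lt_iff.2 h0)).1 h⟩

/-- the decomposition group preserves the non-units of `A` -/
theorem map_mem_nonunits {A : ValuationSubring Qbar} {σ : GQ}
    (hσ : σ ∈ A.decompositionSubgroup ℚ) {x : Qbar} (hx : x ∈ A.nonunits) :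
    σ x ∈ A.nonunits := by
  rw [mem_nonunits_iff_inv] at hx ⊢
  rcases hx with rfl | hx
  · left; exact map_zero σ
  · right
    intro h
    apply hx
    have h1 : σ x⁻¹ ∈ A := by rwa [map_inv₀]
    exact (SymmX0.mem_A_of_decomposition A ⟨σ, hσ⟩ x⁻¹).1 h1

/-! ### The local order -/

set_option maxHeartbeats 1000000 in
/-- **The `W A`-order of S19 on `J₀(N)[ℓ^k]` is local on the cosets of the kernel of reduction**:
every function of the order has values in `A`, and its values at two points of `J₀(N)[ℓ^k]` which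
differ by an element of the kernel of reduction at `A` are congruent modulo the non-units of `A`. -/
theorem exists_local_wOrder (hℓN : ¬ ℓ ∣ N) (k : ℕ) (A : ValuationSubring Qbar)
    (hA : A.LiesOverPrime ℓ) {σ : GQ} (hσ : A.IsFrobeniusAt σ ℓ) :
    ∃ HW : Subalgebra ↥(W A) (↥(T N ((ℓ : ℤ) ^ k)) → Qbar),
      BackEnd.WOrder (fun τ => ⇑(galAct (N := N) (m := (ℓ : ℤ) ^ k) τ)) σ
        (A.inertiaSubgroupIn ℚ) HW ∧
      (∀ f ∈ HW, (∀ t, f t ∈ A) ∧
        ∀ s s' : ↥(T N ((ℓ : ℤ) ^ k)),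
          ((s : JZero N) - (s' : JZero N)) ∈ BaseX0.J1X0 N A hA hℓN → f s - f s' ∈ A.nonunits) ∧
      ∀ s : ↥(T N ((ℓ : ℤ) ^ k)), (∀ f ∈ HW, f s - f 0 ∈ A.nonunits) →
        (s : JZero N) ∈ BaseX0.J1X0 N A hA hℓN := by
  haveI := finite_T (N := N) (Final.pow_ne_zero_int ℓ k)
  haveI := FrameWX0.isNoetherianRing_W hA
  haveI := finite_OLX (N := N) (Final.pow_ne_zero_int ℓ k) hA
  obtain ⟨g, coord, Ψ, C, hc⟩ := exists_chartAPIAt_nonunits (N := N) hℓN k A hA
  unfold CloseX0.ChartAPIAt at C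
  refine ⟨_, ChartAPI.wOrder (OLX A N ((ℓ : ℤ) ^ k)) C
    (frobFrameX0 (N := N) (Final.pow_ne_zero_int ℓ k) hA hσ), fun f hf => ?_, fun s hs => ?_⟩
  swap
  · refine Fermat.Agent.S15.P.ChartLocal.mem_J1_of_forall_sub_zero_mem (σ := σ)
      (nonunitsAddSubgroup A) (fun h1 => ?_) hs
    have h2 : (1 : Qbar) ∈ A.nonunits := h1
    rw [ValuationSubring.mem_nonunits_iff, map_one] at h2
    exact lt_irrefl _ h2
  have hdec := hσ.mem_decompositionSubgroup
  have hloc := Fermat.Agent.S15.P.ChartLocal.local_of_chartAPI C (σ := σ)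
    (nonunitsAddSubgroup A)
    (fun a ha x hx => mul_mem_nonunits ha hx)
    (fun z hz i => hc z hz i)
    (fun a ha => OLX0.map_mem_A hdec ha)
    (fun x hx => map_mem_nonunits hdec hx)
    (fun x hx => (BaseX0.J1_decomposition N A hA hℓN ⟨σ⁻¹, inv_mem hdec⟩ x).2 hx) f hf
  exact ⟨hloc.1, fun s s' h => hloc.2 s s' h⟩

/-! ### The kernel of reduction is the kernel of the Prelude's reduction map -/

/-- `BaseX0.J1X0` is exactly the kernel of the Prelude's `reductionModL` -/
theorem mem_J1X0_iff (hℓN : ¬ ℓ ∣ N) (A : ValuationSubring Qbar) (hA : A.LiesOverPrime ℓ)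
    (z : JZero N) : z ∈ BaseX0.J1X0 N A hA hℓN ↔ reductionModL A N z = 0 := by
  constructor
  · rintro ⟨D, rfl, hD⟩
    rw [reductionModL_mk (reductionInputs N A hA hℓN) D]
    refine (QuotientAddGroup.eq_zero_iff _).mpr ?_
    rw [AddSubgroup.mem_addSubgroupOf, coe_reductionDegZeroAlong]
    exact hD
  · intro h
    obtain ⟨D, rfl⟩ := QuotientAddGroup.mk_surjective z
    refine ⟨D, rfl, ?_⟩
    have h1 := h
    rw [show ((D : Divisor.degZero (K := Qbar) (F := ↥(modularFunctionFieldBar N)) ⧸ _) :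
      JZero N) = Pic0.mk D from rfl, reductionModL_mk (reductionInputs N A hA hℓN) D] at h1
    have h2 := (QuotientAddGroup.eq_zero_iff _).mp h1
    rw [AddSubgroup.mem_addSubgroupOf, coe_reductionDegZeroAlong] at h2
    exact h2

end Fermat.Agent.S15.P.ChartLocalX0
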