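import Fermat.Agent.S32.HopfClosure
import Fermat.Agent.S15.P.ChartLocalX0
import Fermat.Agent.Lib.FrobeniusExists

/-!
# PROJECT M (S15), block (K-P), leaf `OrderG0` (helper16)

The seam between S19's `W`-order and the Hopf-order calculus of `S32/HopfClosure`:

* `isHopfOrder_of_wOrder` : a `BackEnd.WOrder ρ σ I HW` is an `S32.HopfClosure.IsHopfOrder` for the
  group `Γ := ↥I` (inertia), `κ τ := ` the action of `τ` on `K`, `act τ := ρ τ`;
* `exists_isHopfOrder_local` : at `X₀(N)`, for every valuation ring `A` of `ℚ̄` over `ℓ ∤ N` there is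
  a Hopf order `HW` over `W A` on `J₀(N)[ℓ^k]` (inertia-equivariant) with values in `A`, whose
  *connected subgroup* `G⁰(HW) = {s | ∀ f ∈ HW, f s - f 0 ∈ 𝔪_A}` is exactly the kernel of reduction
  `J₀(N)[ℓ^k] ∩ ker(reductionModL A N)`.
-/

set_option autoImplicit false
set_option linter.unusedSectionVars false
set_option synthInstance.maxHeartbeats 400000

noncomputable section

namespace Fermat.Agent.S15.P.OrderG0

open Fermat.Agent.S19 Fermat.Agent.S19.BackEnd Fermat.Agent.S32.HopfClosure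

section Abstract

variable {W K Γ T : Type*} [CommRing W] [Field K] [Algebra W K] [Group Γ]
  [MulSemiringAction Γ K] [AddCommGroup T]

/-- the ring endomorphisms of `K` given by the elements of a subgroup `I ≤ Γ` -/
def kappa (I : Subgroup Γ) : ↥I → K →+* K := fun τ => MulSemiringAction.toRingHom Γ K (τ : Γ)

@[simp] theorem kappa_apply (I : Subgroup Γ) (τ : ↥I) (x : K) :
    kappa (K := K) I τ x = (τ : Γ) • x := rfl

/-- **a `W`-order of S19 is a function-level Hopf order of S32 for the inertia group** -/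
theorem isHopfOrder_of_wOrder {ρ : Γ → T → T} {σ : Γ} {I : Subgroup Γ}
    {HW : Subalgebra W (T → K)} (h : WOrder ρ σ I HW) :
    IsHopfOrder (kappa (K := K) I) (fun (τ : ↥I) t => ρ (τ : Γ) t) HW where
  fg := (fg_toSubmodule_iff HW).1 h.fg
  equiv := fun φ hφ τ t => h.equivI φ hφ (τ : Γ) τ.2 t
  sep := h.sep
  comul := fun φ hφ => by
    obtain ⟨n, a, b, ha, hb, hab⟩ := h.comul φ hφ
    exact ⟨Fin n, inferInstance, a, b, ha, hb, hab⟩

end Abstract

section X0

open ModularCurve Fermat.Agent.S18.C.SmallDVR Fermat.Agent.S19.TorsionX0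
  Fermat.Agent.S15.P.ChartLocalX0

local notation "Qbar" => AlgebraicClosure ℚ
local notation "GQ" => (AlgebraicClosure ℚ ≃ₐ[ℚ] AlgebraicClosure ℚ)

variable {ℓ : ℕ} [Fact ℓ.Prime] {N : ℕ} [NeZero N]

/-- the hypothesis `hfix` of the frame of `S32/HopfClosure` (`R := W A`, `F := K0 A` the inertia
field, `K := ℚ̄`, `Γ := ` the inertia group): an element of `ℚ̄` fixed by inertia lies in `K0 A` -/
theorem hfix_kappa (A : ValuationSubring Qbar) (x : Qbar)
    (h : ∀ τ : ↥(A.inertiaSubgroupIn ℚ), kappa (K := Qbar) (A.inertiaSubgroupIn ℚ) τ x = x) :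
    x ∈ Set.range (algebraMap (K0 A) Qbar) :=
  ⟨⟨x, (mem_K0_iff A).2 fun σ hσ => h ⟨σ, hσ⟩⟩, rfl⟩

set_option maxHeartbeats 1000000 in
/-- **The Hopf order of S19 over `W A`, with its connected subgroup identified.** -/
theorem exists_isHopfOrder_local (hℓN : ¬ ℓ ∣ N) (k : ℕ) (A : ValuationSubring Qbar)
    (hA : A.LiesOverPrime ℓ) :
    ∃ HW : Subalgebra ↥(W A) (↥(T N ((ℓ : ℤ) ^ k)) → Qbar),
      IsHopfOrder (kappa (K := Qbar) (A.inertiaSubgroupIn ℚ))
        (fun (τ : ↥(A.inertiaSubgroupIn ℚ)) t => galAct (N := N) (m := (ℓ : ℤ) ^ k) (τ : GQ) t) HW ∧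
      (∀ f ∈ HW, ∀ t, f t ∈ A) ∧
      (∀ f ∈ HW, ∀ s s' : ↥(T N ((ℓ : ℤ) ^ k)),
          reductionModL A N ((s : JZero N) - (s' : JZero N)) = 0 → f s - f s' ∈ A.nonunits) ∧
      ∀ s : ↥(T N ((ℓ : ℤ) ^ k)),
        (∀ f ∈ HW, f s - f 0 ∈ A.nonunits) ↔ reductionModL A N (s : JZero N) = 0 := by
  obtain ⟨σ, hσ⟩ := Fermat.Agent.Lib.FrobeniusExists.exists_isFrobeniusAt_algebraicClosure A
    (Fact.out : ℓ.Prime) hA
  obtain ⟨HW, hW, hloc, hconv⟩ := exists_local_wOrder (N := N) hℓN k A hA hσ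
  refine ⟨HW, isHopfOrder_of_wOrder hW, fun f hf => (hloc f hf).1, fun f hf s s' h => ?_,
    fun s => ⟨fun h => ?_, fun h f hf => ?_⟩⟩
  · exact (hloc f hf).2 s s' ((mem_J1X0_iff hℓN A hA _).2 h)
  · exact (mem_J1X0_iff hℓN A hA _).1 (hconv s h)
  · refine (hloc f hf).2 s 0 ((mem_J1X0_iff hℓN A hA _).2 ?_)
    rw [ZeroMemClass.coe_zero, sub_zero]
    exact h

end X0

end Fermat.Agent.S15.P.OrderG0
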