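/-
PROJECT M (S15), block (K-P) (helper18): THE TORSOR ARGUMENT, "PEU RAMIFIÉ" FROM INTEGRAL
FOURIER COEFFICIENTS.

Frame of main's `S32/HopfClosure`: `H ⊆ (T → K)` a function-level Hopf order (`IsHopfOrder`),
`O` a valuation subring of `K` containing all the values of the functions of `H`, `T0 ≤ T` a
subgroup such that the operators `act σ` move every point inside its `T0`-coset (`T0` = the
connected part, `Γ` = inertia).  Let `d` be a character of `T` such that

* (E1) the `d`-th Fourier coefficient over `T0` of every `f ∈ H` is integral;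
* (E2) on `T0`, `d` is an `O`-linear combination of functions of `H`;
* (E3) `d` is equivariant on `T0`.

Then for EVERY point `s : T` there is a unit `w` of `O` with `κ σ w = d (act σ s - s) * w` for all
`σ`: the coboundary of `s`, tested on `d`, is the Kummer cocycle of a unit
(`exists_unit_kummer`).  No bases, idempotents or cosets are used: the `d`-component
`proj T0 d f` of a function `f ∈ H` is integral, homogeneous and equivariant, and `1` is an
integral combination of values `proj T0 d b s`.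
-/
import Fermat.Agent.S32.HopfClosure

set_option autoImplicit false

namespace Fermat.Agent.S15.P.Torsor

open Fermat.Agent.S32.HopfClosure
open scoped BigOperators

variable {R K Γ : Type*} [CommRing R] [Field K] [Algebra R K] {κ : Γ → K →+* K}
  {T : Type*} [AddCommGroup T] {act : Γ → T → T} {H : Subalgebra R (T → K)}

/-- The `d`-component of a function, along the subgroup `T0`. -/
noncomputable def proj (T0 : AddSubgroup T) [Fintype T0] (d : T → K) (f : T → K) : T → K :=
  fun t => (Fintype.card T0 : K)⁻¹ * ∑ x : T0, f (t + x) * (d x)⁻¹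

section

variable (T0 : AddSubgroup T) [Fintype T0] {d : T → K}

lemma char_ne_zero (hd : ∀ x y, d (x + y) = d x * d y) (hd0 : d 0 = 1) (x : T) : d x ≠ 0 := by
  intro h
  have h1 : d (x + -x) = d x * d (-x) := hd x (-x)
  rw [add_neg_cancel, hd0, h, zero_mul] at h1
  exact one_ne_zero h1

/-- (A1) The components of the functions of `H` are integral. -/
theorem proj_mem (hH : IsHopfOrder κ act H) (O : ValuationSubring K)
    (hint : ∀ f ∈ H, ∀ t, f t ∈ O)
    (hE1 : ∀ f ∈ H, (Fintype.card T0 : K)⁻¹ * ∑ x : T0, f x * (d x)⁻¹ ∈ O)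
    {f : T → K} (hf : f ∈ H) (t : T) : proj T0 d f t ∈ O := by
  obtain ⟨ι, _, a, b, ha, hb, hab⟩ := hH.comul f hf
  have h1 : proj T0 d f t =
      ∑ i, a i t * ((Fintype.card T0 : K)⁻¹ * ∑ x : T0, b i x * (d x)⁻¹) := by
    unfold proj
    simp only [hab]
    simp_rw [Finset.sum_mul, Finset.mul_sum]
    rw [Finset.sum_comm]
    refine Finset.sum_congr rfl fun i _ => Finset.sum_congr rfl fun x _ => ?_
    ring
  rw [h1]
  exact sum_mem fun i _ => O.mul_mem _ _ (hint _ (ha i) t) (hE1 _ (hb i))

/-- (A2) The components are homogeneous. -/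
theorem proj_add (hd : ∀ x y, d (x + y) = d x * d y) (hd0 : d 0 = 1) (f : T → K) (t : T)
    {y : T} (hy : y ∈ T0) : proj T0 d f (t + y) = d y * proj T0 d f t := by
  unfold proj
  have h1 : ∑ x : T0, f (t + y + x) * (d x)⁻¹ = ∑ x : T0, f (t + x) * (d y * (d x)⁻¹) := by
    refine Fintype.sum_equiv (Equiv.addLeft (⟨y, hy⟩ : T0)) _ _ fun x => ?_
    have hxy : ((Equiv.addLeft (⟨y, hy⟩ : T0)) x : T) = y + x := rfl
    rw [hxy, add_assoc, hd y x, mul_inv, ← mul_assoc (d y), mul_inv_cancel₀ (char_ne_zero hd hd0 y),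
      one_mul]
  rw [h1, Finset.mul_sum, Finset.mul_sum, Finset.mul_sum]
  refine Finset.sum_congr rfl fun x _ => ?_
  ring

end

/-- (A3) The components are equivariant. -/
theorem proj_equiv [Finite T] (hH : IsHopfOrder κ act H) (T0 : AddSubgroup T) [Fintype T0]
    {d : T → K} (hT0 : ∀ σ t, act σ t - t ∈ T0)
    (hadd : ∀ σ s t, act σ (s + t) = act σ s + act σ t)
    (hinj : ∀ σ, Function.Injective (act σ))
    (hE3 : ∀ σ, ∀ x ∈ T0, κ σ (d x) = d (act σ x))
    {f : T → K} (hf : f ∈ H) (σ : Γ) (t : T) :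
    κ σ (proj T0 d f t) = proj T0 d f (act σ t) := by
  have hst : ∀ x : T0, act σ x ∈ T0 := fun x => by
    have h := T0.add_mem (hT0 σ x) x.2
    rwa [sub_add_cancel] at h
  let e0 : T0 → T0 := fun x => ⟨act σ x, hst x⟩
  have he0 : Function.Injective e0 := fun x y h =>
    Subtype.ext (hinj σ (congrArg Subtype.val h))
  let e : T0 ≃ T0 := Equiv.ofBijective e0 (Finite.injective_iff_bijective.1 he0)
  unfold proj
  rw [map_mul, map_inv₀, map_natCast, map_sum]
  congr 1
  refine Fintype.sum_equiv e _ _ fun x => ?_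
  have hex : ((e x : T0) : T) = act σ x := rfl
  rw [map_mul, map_inv₀, hE3 σ x x.2, ← hH.equiv f hf σ (t + x), hadd, hex]

/-- **The torsor argument.** -/
theorem exists_unit_kummer [Finite T] (hH : IsHopfOrder κ act H) (O : ValuationSubring K)
    (hint : ∀ f ∈ H, ∀ t, f t ∈ O) (T0 : AddSubgroup T) [Fintype T0]
    (hT0 : ∀ σ t, act σ t - t ∈ T0)
    (hadd : ∀ σ s t, act σ (s + t) = act σ s + act σ t)
    (hinj : ∀ σ, Function.Injective (act σ))
    (hn : (Fintype.card T0 : K) ≠ 0)
    {d : T → K} (hd : ∀ x y, d (x + y) = d x * d y) (hd0 : d 0 = 1)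
    (hE1 : ∀ f ∈ H, (Fintype.card T0 : K)⁻¹ * ∑ x : T0, f x * (d x)⁻¹ ∈ O)
    (hE2 : ∃ (ι : Type) (_ : Fintype ι) (c : ι → K) (g : ι → T → K),
      (∀ j, c j ∈ O) ∧ (∀ j, g j ∈ H) ∧ ∀ x ∈ T0, d x = ∑ j, c j * g j x)
    (hE3 : ∀ σ, ∀ x ∈ T0, κ σ (d x) = d (act σ x)) (s : T) :
    ∃ w : K, O.valuation w = 1 ∧ ∀ σ, κ σ w = d (act σ s - s) * w := by
  obtain ⟨ι, _, c, g, hc, hg, hdg⟩ := hE2
  choose n a b hab using fun j => (hH.comul (g j) (hg j)).exists_fin
  -- `1` as an integral combination of the values of the components at `s`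
  have hone : (1 : K) = ∑ j, ∑ i, c j * (a j i : T → K) (-s) * proj T0 d (b j i : T → K) s := by
    have h1 : ∀ x : T0, d x = ∑ j, ∑ i, c j * (a j i : T → K) (-s) * (b j i : T → K) (s + x) := by
      intro x
      rw [hdg x x.2]
      refine Finset.sum_congr rfl fun j _ => ?_
      have h2 := hab j (-s) (s + x)
      rw [neg_add_cancel_left] at h2
      rw [h2, Finset.mul_sum]
      refine Finset.sum_congr rfl fun i _ => ?_
      ring
    have h3 : (1 : K) = (Fintype.card T0 : K)⁻¹ * ∑ x : T0, d x * (d x)⁻¹ := by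
      simp_rw [mul_inv_cancel₀ (char_ne_zero hd hd0 _)]
      rw [Finset.sum_const, Finset.card_univ, nsmul_eq_mul, mul_one, inv_mul_cancel₀ hn]
    rw [h3]
    unfold proj
    simp_rw [h1, Finset.sum_mul, Finset.mul_sum]
    rw [Finset.sum_comm]
    refine Finset.sum_congr rfl fun j _ => ?_
    rw [Finset.sum_comm]
    refine Finset.sum_congr rfl fun i _ => Finset.sum_congr rfl fun x _ => ?_
    ring
  -- one of the values is a unit
  have hex : ∃ j i, O.valuation (proj T0 d (b j i : T → K) s) = 1 := by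
    by_contra hcon
    push_neg at hcon
    have hlt : ∀ j i, O.valuation (c j * (a j i : T → K) (-s) * proj T0 d (b j i : T → K) s) < 1 := by
      intro j i
      have h1 : O.valuation (proj T0 d (b j i : T → K) s) ≤ 1 :=
        (O.valuation_le_one_iff _).2 (proj_mem T0 hH O hint hE1 (b j i).2 s)
      have h2 : O.valuation (proj T0 d (b j i : T → K) s) < 1 := lt_of_le_of_ne h1 (hcon j i)
      have h3 : O.valuation (c j * (a j i : T → K) (-s)) ≤ 1 :=
        (O.valuation_le_one_iff _).2 (O.mul_mem _ _ (hc j) (hint _ (a j i).2 (-s)))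
      rw [map_mul]
      exact mul_lt_one_of_nonneg_of_lt_one_right h3 zero_le' h2
    have h4 : O.valuation (1 : K) < 1 := by
      rw [hone]
      refine Valuation.map_sum_lt _ one_ne_zero fun j _ => ?_
      exact Valuation.map_sum_lt _ one_ne_zero fun i _ => hlt j i
    rw [map_one] at h4
    exact lt_irrefl _ h4
  obtain ⟨j, i, hw⟩ := hex
  refine ⟨proj T0 d (b j i : T → K) s, hw, fun σ => ?_⟩
  rw [proj_equiv hH T0 hT0 hadd hinj hE3 (b j i).2 σ s]
  have h5 : act σ s = s + (act σ s - s) := by abel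
  conv_lhs => rw [h5]
  exact proj_add T0 hd hd0 _ s (hT0 σ s)

end Fermat.Agent.S15.P.Torsor
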