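/-
PROJECT M (S15), block (K-P) (helper18): FROM A FUNCTION-LEVEL HOPF ORDER TO `OrdDatum.peu`.

Junction between the torsor argument (`S15/P/Torsor.exists_unit_kummer`, frame of main's
`S32/HopfClosure`) and the condition at `P` of the descent (`S15/D/UnitCond`): for a finite Galois
module `A` carrying a Hopf order `H` (for the action of the inertia group at `P`) whose functions
have integral values at the fixed place, and a submodule `A0` (the connected part) such that every
character of `A` has integral Fourier coefficients on `A0`, is integrally spanned by `H` on `A0`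
and is inertia-equivariant on `A0`, all the coboundaries `s ↦ s g - g` are unit cocycles.
-/
import Fermat.Agent.S15.P.Torsor
import Fermat.Agent.S15.D.UnitCond

set_option autoImplicit false

namespace Fermat.Agent.S15.P.PeuOfOrder

open Fermat.Agent.S32.HopfClosure Fermat.Agent.S15.P.Torsor Fermat.Agent.S15.D
open Fermat.Agent.S56.Coh Fermat.Agent.CFT.Bridge Fermat.Agent.CFT.LocalBridge
open scoped BigOperators

variable {k : Type} [CommRing k] {P : ℕ} [Fact P.Prime]

/-- The multiplicative function `A → ℚ̄` attached to a character `A →+ Additive ℚ̄ˣ`. -/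
noncomputable def charFun {A : Type} [AddCommGroup A] (d : A →+ Additive Qbarˣ) : A → Qbar :=
  fun a => ((Additive.toMul (d a) : Qbarˣ) : Qbar)

lemma charFun_add {A : Type} [AddCommGroup A] (d : A →+ Additive Qbarˣ) (x y : A) :
    charFun d (x + y) = charFun d x * charFun d y := by
  unfold charFun
  rw [map_add, toMul_add, Units.val_mul]

lemma charFun_zero {A : Type} [AddCommGroup A] (d : A →+ Additive Qbarˣ) : charFun d 0 = 1 := by
  unfold charFun
  rw [map_zero, toMul_zero, Units.val_one]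

/-- **`peu` from a Hopf order.** -/
theorem isUnitCoc_of_hopfOrder {R : Type*} [CommRing R] [Algebra R Qbar] (A : Rep.{0} k GQ)
    [Finite A] (A0 : Submodule k A) [Fintype A0.toAddSubgroup]
    (κ : ↥(Iq P) → Qbar →+* Qbar) (hκ : ∀ (σ : ↥(Iq P)) (x : Qbar), κ σ x = (σ : GQ) x)
    {H : Subalgebra R (A → Qbar)}
    (hH : IsHopfOrder κ (fun (σ : ↥(Iq P)) (a : A) => A.ρ (σ : GQ) a) H)
    (hint : ∀ f ∈ H, ∀ t, f t ∈ padicPlace P)
    (hT0 : ∀ s ∈ Iq P, ∀ a : A, A.ρ s a - a ∈ A0)
    (hE1 : ∀ d : A →+ Additive Qbarˣ, ∀ f ∈ H,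
      (Fintype.card A0.toAddSubgroup : Qbar)⁻¹ *
        ∑ x : A0.toAddSubgroup, f x * (charFun d x)⁻¹ ∈ padicPlace P)
    (hE2 : ∀ d : A →+ Additive Qbarˣ, ∃ (ι : Type) (_ : Fintype ι) (c : ι → Qbar)
      (g : ι → A → Qbar), (∀ j, c j ∈ padicPlace P) ∧ (∀ j, g j ∈ H) ∧
        ∀ x ∈ A0.toAddSubgroup, charFun d x = ∑ j, c j * g j x)
    (hE3 : ∀ d : A →+ Additive Qbarˣ, ∀ s ∈ Iq P, ∀ x ∈ A0,
      (s : GQ) (charFun d x) = charFun d (A.ρ s x))
    (g : A) : IsUnitCoc P A (fun s => A.ρ s g - g) := by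
  intro d
  have hn : (Fintype.card A0.toAddSubgroup : Qbar) ≠ 0 :=
    Nat.cast_ne_zero.2 Fintype.card_ne_zero
  obtain ⟨w, hw1, hw⟩ := exists_unit_kummer (κ := κ) hH (padicPlace P) hint A0.toAddSubgroup
    (fun σ t => hT0 σ.1 σ.2 t) (fun σ s t => map_add _ s t)
    (fun σ => (A.ρ.apply_bijective (σ : GQ)).1) hn (charFun_add d) (charFun_zero d)
    (hE1 d) (hE2 d) (fun σ x hx => by rw [hκ]; exact hE3 d σ.1 σ.2 x hx) g
  refine ⟨w, ?_, hw1, fun s hs => ?_⟩
  · rintro rfl
    rw [map_zero] at hw1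
    exact zero_ne_one hw1
  · have := hw ⟨s, hs⟩
    rw [hκ] at this
    exact this

end Fermat.Agent.S15.P.PeuOfOrder
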