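/-
PROJECT M (S15), block (K-P) (helper18): `OrdDatum.peu` FROM THE INTEGRALITY OF THE NORMALISED
INTEGRAL ON THE CONNECTED PART.

`S15/P/PeuOfOrder.isUnitCoc_of_hopfOrder` with its three Fourier-type hypotheses replaced by the
single hypothesis `hInt` (`|A0|⁻¹ ∑_{x ∈ A0} f x` is integral at the fixed place over `P` for every
`f` in the Hopf order), through `S15/P/CharsInt` applied to the restriction of the order to `A0`.
-/
import Fermat.Agent.S15.P.PeuOfOrder
import Fermat.Agent.S15.P.CharsInt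

set_option autoImplicit false

namespace Fermat.Agent.S15.P.PeuOfInt

open Fermat.Agent.S32.HopfClosure Fermat.Agent.S15.P.Torsor Fermat.Agent.S15.D
open Fermat.Agent.S15.P.PeuOfOrder Fermat.Agent.S15.P.CharsInt
open Fermat.Agent.S56.Coh Fermat.Agent.CFT.Bridge Fermat.Agent.CFT.LocalBridge
open scoped BigOperators

variable {k : Type} [CommRing k] {P : ℕ} [Fact P.Prime]

/-- Inertia moves integral elements by non-units. -/
theorem valuation_sub_lt_one_of_mem_Iq {s : GQ} (hs : s ∈ Iq P) {x : Qbar}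
    (hx : x ∈ padicPlace P) : (padicPlace P).valuation (s x - x) < 1 :=
  ((Fermat.Agent.CFT.LocalBridge.mem_inertiaSubgroupIn_iff (padicPlace P) s).1 hs).2 x hx

/-- **`peu` from the integrality of the normalised integral on `A0`.** -/
theorem isUnitCoc_of_int {R F : Type*} [CommRing R] [IsDomain R] [IsPrincipalIdealRing R]
    [Field F] [Algebra R F] [IsFractionRing R F] [Algebra F Qbar] [Algebra R Qbar]
    [IsScalarTower R F Qbar] (A : Rep.{0} k GQ) [Finite A] (A0 : Submodule k A)
    [Fintype A0.toAddSubgroup]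
    (κ : ↥(Iq P) → Qbar →+* Qbar) (hκ : ∀ (σ : ↥(Iq P)) (x : Qbar), κ σ x = (σ : GQ) x)
    (hfix : ∀ x : Qbar, (∀ σ, κ σ x = x) → x ∈ Set.range (algebraMap F Qbar))
    (hRO : ∀ r : R, algebraMap R Qbar r ∈ padicPlace P)
    {H : Subalgebra R (A → Qbar)}
    (hH : IsHopfOrder κ (fun (σ : ↥(Iq P)) (a : A) => A.ρ (σ : GQ) a) H)
    (hint : ∀ f ∈ H, ∀ t, f t ∈ padicPlace P)
    (hT0 : ∀ s ∈ Iq P, ∀ a : A, A.ρ s a - a ∈ A0)
    (hInt : ∀ f ∈ H, (Fintype.card A0.toAddSubgroup : Qbar)⁻¹ *
      ∑ x : A0.toAddSubgroup, f x ∈ padicPlace P)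
    (g : A) : IsUnitCoc P A (fun s => A.ρ s g - g) := by
  classical
  -- the connected part is stable under inertia
  have hst : ∀ s ∈ Iq P, ∀ a ∈ A0, A.ρ s a ∈ A0 := by
    intro s hs a ha
    have : A.ρ s a = (A.ρ s a - a) + a := by abel
    rw [this]
    exact A0.add_mem (hT0 s hs a) ha
  -- the restricted order
  let act0 : ↥(Iq P) → ↥A0.toAddSubgroup → ↥A0.toAddSubgroup :=
    fun σ x => ⟨A.ρ (σ : GQ) (x : A), hst σ.1 σ.2 _ x.2⟩
  have hH0 : IsHopfOrder κ act0 (H.map (pullback R A0.toAddSubgroup.subtype)) :=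
    hH.map_pullback A0.toAddSubgroup.subtype Subtype.coe_injective (fun σ t => rfl)
  have hinj : ∀ σ, Function.Injective (act0 σ) := by
    intro σ x y hxy
    apply Subtype.ext
    exact (A.ρ.apply_bijective (σ : GQ)).1 (congrArg Subtype.val hxy)
  have hbij : ∀ σ, Function.Bijective (act0 σ) := fun σ =>
    ⟨hinj σ, Finite.injective_iff_surjective.1 (hinj σ)⟩
  have hadd : ∀ σ s t, act0 σ (s + t) = act0 σ s + act0 σ t := by
    intro σ s t
    apply Subtype.ext
    exact map_add _ _ _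
  have hn : (Fintype.card A0.toAddSubgroup : Qbar) ≠ 0 :=
    Nat.cast_ne_zero.2 Fintype.card_ne_zero
  have hInt0 : ∀ f ∈ H.map (pullback R A0.toAddSubgroup.subtype),
      (Fintype.card A0.toAddSubgroup : Qbar)⁻¹ * ∑ t, f t ∈ padicPlace P := by
    rintro _ ⟨f, hf, rfl⟩
    exact hInt f hf
  have hm : ∀ x ∈ padicPlace P, ∀ σ : ↥(Iq P), (padicPlace P).valuation (κ σ x - x) < 1 := by
    intro x hx σ
    rw [hκ]
    exact valuation_sub_lt_one_of_mem_Iq σ.2 hx
  have hmul : ∀ (d : A →+ Additive Qbarˣ) (s t : ↥A0.toAddSubgroup),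
      (fun x : ↥A0.toAddSubgroup => charFun d (x : A)) (s + t) =
        (fun x : ↥A0.toAddSubgroup => charFun d (x : A)) s *
          (fun x : ↥A0.toAddSubgroup => charFun d (x : A)) t :=
    fun d s t => charFun_add d _ _
  refine isUnitCoc_of_hopfOrder A A0 κ hκ hH hint hT0 ?_ ?_ ?_ g
  · -- integral Fourier coefficients
    intro d f hf
    exact fourier_mem hfix (padicPlace P) hRO hH0 (fun σ => (hbij σ).2) hInt0
      (d := fun x : ↥A0.toAddSubgroup => charFun d (x : A)) (hmul d)
      (f := pullback R A0.toAddSubgroup.subtype f) ⟨f, hf, rfl⟩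
  · -- the characters are integrally spanned by the order
    intro d
    obtain ⟨n, δ, h, hδO, hmem, hδ⟩ := exists_integral_coeff hfix (padicPlace P) hRO hH0
      (fun σ => (hbij σ).2) (d := fun x : ↥A0.toAddSubgroup => charFun d (x : A)) (hmul d)
    choose g' hg' hgh using hmem
    refine ⟨Fin n, inferInstance, δ, g', hδO, hg', fun x hx => ?_⟩
    have := hδ ⟨x, hx⟩
    simp only at this
    rw [this]
    refine Finset.sum_congr rfl fun j _ => ?_
    rw [← hgh j]
    rfl
  · -- the characters are equivariant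
    intro d s hs x hx
    have := char_equivariant hfix (padicPlace P) hRO hm hH0 hbij hadd hn hInt0
      (d := fun x : ↥A0.toAddSubgroup => charFun d (x : A)) (hmul d) (charFun_zero d)
      ⟨s, hs⟩ ⟨x, hx⟩
    rw [hκ] at this
    exact this

end Fermat.Agent.S15.P.PeuOfInt
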