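/-
PROJECT M (S15), block (K-P) (helper18): THE ORDINARY DATUM OF THE EISENSTEIN PART `Gk`.

* `toT`               : `Gk N P k S → J₀(N)[P ^ k]` (S19's torsion submodule);
* `exists_hopfOrder_Gk` : S19's order (through `S15/P/OrderG0`, helper16) restricted to `Gk`: a Hopf
                        order over `W (padicPlace P)` for the inertia group `Iq P`, with values in
                        the place, whose connected subgroup is `G0red N P k S` (helper24);
* `ordDatum_Gk`       : `OrdDatum P N (Gk N P k S) (G0red N P k S)` of block [D], from ONE hypothesis: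
                        the normalised integral over `G0red` of every Hopf order on `Gk` which is
                        local on `G0red` is integral (= the output of the chain induction `Int`).
-/
import Fermat.Agent.S15.P.OrderG0
import Fermat.Agent.S15.P.PeuOfInt
import Fermat.Agent.S15.K.Ord

set_option autoImplicit false
set_option synthInstance.maxHeartbeats 400000

noncomputable section

namespace Fermat.Agent.S15.P.PeuGk

open ModularCurve Fermat.Agent.S18.C.SmallDVR Fermat.Agent.S19.TorsionX0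
open Fermat.Agent.S32.HopfClosure Fermat.Agent.S15.P.OrderG0 Fermat.Agent.S15.P.PeuOfInt
open Fermat.Agent.S15.D Fermat.Agent.S15.K.Kummer Fermat.Agent.S15.K.Star
  Fermat.Agent.S15.K.Count Fermat.Agent.S15.K.Ord
open Fermat.Agent.S56.Coh Fermat.Agent.CFT.Bridge Fermat.Agent.CFT.LocalBridge
open scoped BigOperators

variable {N : ℕ} [NeZero N] {P k : ℕ} {S : Set ℕ}

/-- The Eisenstein part inside S19's torsion submodule. -/
def toT : Gk N P k S →+ ↥(T N ((P : ℤ) ^ k)) where
  toFun g := ⟨incl N P k S g, mem_T_iff.2 (by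
    have h := nsmul_incl N P k S g
    rw [← Nat.cast_pow, natCast_zsmul]
    exact h)⟩
  map_zero' := Subtype.ext (map_zero _)
  map_add' x y := Subtype.ext (map_add _ x y)

lemma coe_toT (g : Gk N P k S) : ((toT g : ↥(T N ((P : ℤ) ^ k))) : JZero N) = incl N P k S g := rfl

lemma toT_injective : Function.Injective (toT (N := N) (P := P) (k := k) (S := S)) :=
  fun _ _ h => incl_injective N P k S (congrArg Subtype.val h)

variable [Fact P.Prime]

/-- **The Hopf order on `Gk`**, with its connected subgroup. -/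
theorem exists_hopfOrder_Gk (hPN : ¬ P ∣ N) :
    ∃ H : Subalgebra ↥(W (padicPlace P)) (Gk N P k S → Qbar),
      IsHopfOrder (kappa (K := Qbar) (Iq P))
        (fun (τ : ↥(Iq P)) (g : Gk N P k S) => (Gk N P k S).ρ (τ : GQ) g) H ∧
      (∀ f ∈ H, ∀ t, f t ∈ padicPlace P) ∧
      (∀ f ∈ H, ∀ s s', s - s' ∈ G0red N P k S → f s - f s' ∈ (padicPlace P).nonunits) ∧
      ∀ s, (∀ f ∈ H, f s - f 0 ∈ (padicPlace P).nonunits) ↔ s ∈ G0red N P k S := by
  obtain ⟨HW, h1, h2, h3, h4⟩ := exists_isHopfOrder_local (N := N) (ℓ := P) hPN k (padicPlace P)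
    (liesOverPrime_padicPlace P)
  refine ⟨HW.map (pullback _ (toT (N := N) (P := P) (k := k) (S := S))),
    h1.map_pullback toT toT_injective (fun σ t => rfl), ?_, ?_, fun s => ⟨fun h => ?_, fun h => ?_⟩⟩
  · rintro _ ⟨f, hf, rfl⟩ t
    exact h2 f hf (toT t)
  · rintro _ ⟨f, hf, rfl⟩ s s' hss'
    refine h3 f hf (toT s) (toT s') ?_
    rw [coe_toT, coe_toT, ← map_sub]
    exact (mem_G0red_iff N P k S).1 hss'
  · rw [mem_G0red_iff, ← coe_toT]
    refine (h4 (toT s)).1 fun f hf => ?_
    have := h _ ⟨f, hf, rfl⟩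
    simpa using this
  · rintro _ ⟨f, hf, rfl⟩
    have := (h4 (toT s)).2 ((mem_G0red_iff N P k S).1 h) f hf
    simpa using this

/-- **The ordinary datum of `Gk`**, from the integrality of the normalised integrals. -/
theorem ordDatum_Gk [Fact N.Prime] (hPN : ¬ P ∣ N)
    [Fintype ↥(G0red N P k S).toAddSubgroup]
    (hInt : ∀ H : Subalgebra ↥(W (padicPlace P)) (Gk N P k S → Qbar),
      IsHopfOrder (kappa (K := Qbar) (Iq P))
        (fun (τ : ↥(Iq P)) (g : Gk N P k S) => (Gk N P k S).ρ (τ : GQ) g) H →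
      (∀ f ∈ H, ∀ s ∈ G0red N P k S, f s - f 0 ∈ (padicPlace P).nonunits) →
      ∀ f ∈ H, (Fintype.card ↥(G0red N P k S).toAddSubgroup : Qbar)⁻¹ *
        ∑ x : ↥(G0red N P k S).toAddSubgroup, f x ∈ padicPlace P) :
    OrdDatum P N (Gk N P k S) (G0red N P k S) := by
  have hPk : NeZero (P ^ k) := ⟨pow_ne_zero _ (Fact.out : P.Prime).ne_zero⟩
  have hfin : Finite (Gk N P k S) := finite_Gk
  have hNP : N ≠ P := fun h => hPN (h ▸ dvd_rfl)
  obtain ⟨H, hH, hval, hloc, hG0⟩ := exists_hopfOrder_Gk (N := N) (P := P) (k := k) (S := S) hPN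
  have : IsDiscreteValuationRing ↥(W (padicPlace P)) :=
    isDiscreteValuationRing_W (liesOverPrime_padicPlace P)
  refine ⟨fun q _ hqN hqP s hs x => unram_Gk q hqN hqP s hs x,
    fun s hs x => inertia_Gk hPN s hs x, fun g => ?_⟩
  refine isUnitCoc_of_int (R := ↥(W (padicPlace P))) (F := ↥(K0 (padicPlace P)))
    (Gk N P k S) (G0red N P k S) (kappa (K := Qbar) (Iq P)) (fun σ x => rfl)
    (hfix_kappa (padicPlace P)) (algebraMap_W_Qbar_mem (padicPlace P)) hH hval
    (fun s hs x => inertia_Gk hPN s hs x) ?_ g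
  refine hInt H hH fun f hf s hs => ?_
  exact hloc f hf s 0 (by rwa [sub_zero])

end Fermat.Agent.S15.P.PeuGk
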