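/-
PROJECT M (S15), block (K-P) (helper18): `peu` AND `hcyc` FOR THE EISENSTEIN PART FROM A FLAG.

* `oframe_padic`  : helper6's arithmetic frame `OFrame` at `(W (padicPlace P), K0, ℚ̄, Iq P)`;
* `relIndex_inf`  : a chain with layers of order `P`, intersected with a subgroup, has successive
                    indices `1` or `P`;
* `int_of_flag`   : the hypothesis `hInt` of `S15/P/PeuGk.ordDatum_Gk`, from any Galois-stable flag
                    of `Gk N P k S` with layers of order `P` (helper6's chain induction `Int`);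
* `ordDatum_Gk_of_flag`, `peu_Gk_of_flag`, `hcyc_Gk_of_flag` : the ordinary datum of
                    `(Gk N P k S, G0red N P k S)`, its field `peu`, and the equivariance of the
                    characters on `G0red` (the `hcyc` of `S15/D/Greenberg`), from such a flag.
-/
import Fermat.Agent.S15.P.PeuGk
import Fermat.Agent.S15.P.Integral

set_option autoImplicit false
set_option synthInstance.maxHeartbeats 400000

noncomputable section

namespace Fermat.Agent.S15.P.GkChain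

open ModularCurve Fermat.Agent.S18.C.SmallDVR Fermat.Agent.S19.TorsionX0
open Fermat.Agent.S32.HopfClosure Fermat.Agent.S15.P.OrderG0 Fermat.Agent.S15.P.PeuOfInt
  Fermat.Agent.S15.P.PeuGk Fermat.Agent.S15.P.Integral Fermat.Agent.S15.P.PeuOfOrder
  Fermat.Agent.S15.P.CharsInt
open Fermat.Agent.S15.D Fermat.Agent.S15.K.Kummer Fermat.Agent.S15.K.Star
  Fermat.Agent.S15.K.Count Fermat.Agent.S15.K.Ord
open Fermat.Agent.S56.Coh Fermat.Agent.CFT.Bridge Fermat.Agent.CFT.LocalBridge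
open scoped BigOperators

/-! ### The arithmetic frame at the fixed place over `P` -/

/-- helper6's frame at `(W, K0, ℚ̄)` for the inertia group `Iq P`. -/
theorem oframe_padic (P : ℕ) [Fact P.Prime] :
    OFrame ↥(W (padicPlace P)) ↥(K0 (padicPlace P)) (kappa (K := Qbar) (Iq P)) (padicPlace P) P where
  fix := hfix_kappa (padicPlace P)
  le := algebraMap_W_Qbar_mem (padicPlace P)
  sat := fun x hx => ⟨⟨x, hx⟩, rfl⟩
  inertia := fun σ x hx =>
    valuation_sub_lt_one_of_mem_Iq σ.2 (((padicPlace P).valuation_le_one_iff _).1 hx)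
  unif_lt := valuation_ell_lt_one (liesOverPrime_padicPlace P)
  unif := by
    intro x hx
    by_cases hx0 : x = 0
    · rw [hx0, map_zero, map_zero]
      exact zero_le
    have hxW : x ∈ W (padicPlace P) :=
      ((padicPlace P).valuation_le_one_iff _).1 hx.le
    obtain ⟨n, hn⟩ := exists_valuation_eq_pow (liesOverPrime_padicPlace P)
      (⟨x, hxW⟩ : ↥(W (padicPlace P))) (fun h => hx0 (congrArg Subtype.val h))
    change (padicPlace P).valuation ((x : ↥(K0 (padicPlace P))) : Qbar) =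
      (padicPlace P).valuation ((P : ℕ) : Qbar) ^ n at hn
    change (padicPlace P).valuation ((x : ↥(K0 (padicPlace P))) : Qbar) ≤ _
    change (padicPlace P).valuation ((x : ↥(K0 (padicPlace P))) : Qbar) < 1 at hx
    rw [hn] at hx ⊢
    rcases Nat.eq_zero_or_pos n with h0 | hpos
    · rw [h0, pow_zero] at hx
      exact absurd hx (lt_irrefl _)
    · calc (padicPlace P).valuation ((P : ℕ) : Qbar) ^ n
          ≤ (padicPlace P).valuation ((P : ℕ) : Qbar) ^ 1 :=
            pow_le_pow_of_le_one zero_le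
              (valuation_ell_lt_one (liesOverPrime_padicPlace P)).le hpos
        _ = _ := pow_one _

/-! ### Indices of an intersected chain -/

/-- If `|F'| = P |F|` for subgroups `F ≤ F'` of a finite abelian group, then the index of
`F ⊓ L` in `F' ⊓ L` is `1` or `P`. -/
theorem relIndex_inf {G : Type*} [AddCommGroup G] [Finite G] {P : ℕ} (hP : P.Prime)
    (F F' L : AddSubgroup G) (hle : F ≤ F') (hcard : Nat.card F' = P * Nat.card F) :
    (F ⊓ L).relIndex (F' ⊓ L) = 1 ∨ (F ⊓ L).relIndex (F' ⊓ L) = P := by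
  -- the index of `F` in `F'`
  have h1 : Nat.card (F.addSubgroupOf F') * F.relIndex F' = Nat.card F' :=
    AddSubgroup.card_mul_index _
  have h2 : Nat.card (F.addSubgroupOf F') = Nat.card F :=
    Nat.card_congr (AddSubgroup.addSubgroupOfEquivOfLe hle).toEquiv
  have hpos : 0 < Nat.card F := Nat.card_pos
  have h3 : F.relIndex F' = P := by
    rw [h2, hcard, mul_comm] at h1
    exact Nat.eq_of_mul_eq_mul_right hpos h1
  -- the index of `F ⊓ L` in `F' ⊓ L` through the quotient map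
  have h4 : (F ⊓ L).relIndex (F' ⊓ L) = F.relIndex (F' ⊓ L) := by
    have : F ⊓ L = F ⊓ (F' ⊓ L) := by
      rw [← inf_assoc, inf_eq_left.2 hle]
    rw [this, AddSubgroup.inf_relIndex_right]
  have h5 : F.relIndex (F' ⊓ L) = Nat.card ((F' ⊓ L).map (QuotientAddGroup.mk' F)) := by
    have := AddSubgroup.relIndex_ker (QuotientAddGroup.mk' F) (K := F' ⊓ L)
    rwa [QuotientAddGroup.ker_mk'] at this
  have h6 : F.relIndex F' = Nat.card (F'.map (QuotientAddGroup.mk' F)) := by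
    have := AddSubgroup.relIndex_ker (QuotientAddGroup.mk' F) (K := F')
    rwa [QuotientAddGroup.ker_mk'] at this
  have h7 : Nat.card ((F' ⊓ L).map (QuotientAddGroup.mk' F)) ∣
      Nat.card (F'.map (QuotientAddGroup.mk' F)) :=
    AddSubgroup.card_dvd_of_le (AddSubgroup.map_mono inf_le_left)
  rw [← h5, ← h6, h3, ← h4] at h7
  exact (Nat.dvd_prime hP).1 h7

/-! ### From a flag of `Gk` to the integrality of the normalised integrals -/

variable {N : ℕ} [NeZero N] {P k : ℕ} {S : Set ℕ} [Fact P.Prime]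

/-- **`Int` for the Hopf orders on `Gk` which are local on `G0red`**, from a Galois-stable flag with
layers of order `P`: this is the hypothesis `hInt` of `PeuGk.ordDatum_Gk`. -/
theorem int_of_flag (hPN : ¬ P ∣ N)
    (hflag : ∃ n : ℕ, ∃ F : ℕ → Submodule (ZMod (P ^ k)) (Gk N P k S), F 0 = ⊥ ∧ F n = ⊤ ∧
      (∀ m, F m ≤ F (m + 1)) ∧
      (∀ (m : ℕ) (s : GQ), ∀ u ∈ F m, (Gk N P k S).ρ s u ∈ F m) ∧
      ∀ m < n, Nat.card (F (m + 1)) = P * Nat.card (F m))
    [Fintype ↥(G0red N P k S).toAddSubgroup]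
    (H : Subalgebra ↥(W (padicPlace P)) (Gk N P k S → Qbar))
    (hH : IsHopfOrder (kappa (K := Qbar) (Iq P))
      (fun (τ : ↥(Iq P)) (g : Gk N P k S) => (Gk N P k S).ρ (τ : GQ) g) H)
    (hloc : ∀ f ∈ H, ∀ s ∈ G0red N P k S, f s - f 0 ∈ (padicPlace P).nonunits) :
    ∀ f ∈ H, (Fintype.card ↥(G0red N P k S).toAddSubgroup : Qbar)⁻¹ *
      ∑ x : ↥(G0red N P k S).toAddSubgroup, f x ∈ padicPlace P := by
  classical
  have hPk : NeZero (P ^ k) := ⟨pow_ne_zero _ (Fact.out : P.Prime).ne_zero⟩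
  have hfin : Finite (Gk N P k S) := finite_Gk
  have hdvr : IsDiscreteValuationRing ↥(W (padicPlace P)) :=
    isDiscreteValuationRing_W (liesOverPrime_padicPlace P)
  obtain ⟨n, F, h0, hn, hmono, hstab, hcard⟩ := hflag
  set Fl : ℕ → AddSubgroup (Gk N P k S) :=
    fun i => (F i).toAddSubgroup ⊓ (G0red N P k S).toAddSubgroup with hFl
  have hFl0 : Fl 0 = ⊥ := by
    simp only [hFl, h0, Submodule.bot_toAddSubgroup, bot_inf_eq]
  have hFln : Fl n = (G0red N P k S).toAddSubgroup := by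
    simp only [hFl, hn, Submodule.top_toAddSubgroup, top_inf_eq]
  have hLst : ∀ (σ : ↥(Iq P)), ∀ s ∈ (G0red N P k S).toAddSubgroup,
      (Gk N P k S).ρ (σ : GQ) s ∈ (G0red N P k S).toAddSubgroup := by
    intro σ s hs
    have : (Gk N P k S).ρ (σ : GQ) s = ((Gk N P k S).ρ (σ : GQ) s - s) + s := by abel
    rw [this]
    exact (G0red N P k S).add_mem (inertia_Gk hPN σ.1 σ.2 s) hs
  have hInt := isInt_restrict_of_chain (oframe_padic P) hH (fun σ s t => map_add _ s t)
    (fun σ => ((Gk N P k S).ρ.apply_bijective (σ : GQ)).1) Fl n hFl0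
    (fun i _ => inf_le_inf_right _ (Submodule.toAddSubgroup_mono (hmono i)))
    (fun i _ σ s hs => ⟨hstab i (σ : GQ) s hs.1, hLst σ s hs.2⟩)
    (fun i hi => relIndex_inf (Fact.out : P.Prime) (F i).toAddSubgroup (F (i + 1)).toAddSubgroup
      (G0red N P k S).toAddSubgroup (Submodule.toAddSubgroup_mono (hmono i)) (hcard i hi))
    (fun f hf s hs => by
      rw [hFln] at hs
      exact hloc f hf s hs) n le_rfl
  rw [hFln] at hInt
  rw [isInt_iff] at hInt
  intro f hf
  have h1 := hInt _ ⟨f, hf, rfl⟩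
  have hN0 : (Fintype.card ↥(G0red N P k S).toAddSubgroup : Qbar) ≠ 0 :=
    Nat.cast_ne_zero.2 Fintype.card_ne_zero
  have hpos : 0 < (padicPlace P).valuation (Fintype.card ↥(G0red N P k S).toAddSubgroup : Qbar) :=
    (Valuation.pos_iff _).2 hN0
  rw [← (padicPlace P).valuation_le_one_iff, map_mul, map_inv₀, inv_mul_le_iff₀ hpos, mul_one]
  exact h1

/-- **The ordinary datum of `(Gk, G0red)` from a flag.** -/
theorem ordDatum_Gk_of_flag [Fact N.Prime] (hPN : ¬ P ∣ N)
    (hflag : ∃ n : ℕ, ∃ F : ℕ → Submodule (ZMod (P ^ k)) (Gk N P k S), F 0 = ⊥ ∧ F n = ⊤ ∧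
      (∀ m, F m ≤ F (m + 1)) ∧
      (∀ (m : ℕ) (s : GQ), ∀ u ∈ F m, (Gk N P k S).ρ s u ∈ F m) ∧
      ∀ m < n, Nat.card (F (m + 1)) = P * Nat.card (F m)) :
    OrdDatum P N (Gk N P k S) (G0red N P k S) := by
  classical
  have hPk : NeZero (P ^ k) := ⟨pow_ne_zero _ (Fact.out : P.Prime).ne_zero⟩
  have hfin : Finite (Gk N P k S) := finite_Gk
  let _ : Fintype ↥(G0red N P k S).toAddSubgroup := Fintype.ofFinite _
  exact ordDatum_Gk hPN fun H hH hloc => int_of_flag hPN hflag H hH hloc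

/-- **`peu` for `Gk` from a flag** (the hypothesis `hpeu` of `S15/D/ToStar`). -/
theorem peu_Gk_of_flag [Fact N.Prime] (hPN : ¬ P ∣ N)
    (hflag : ∃ n : ℕ, ∃ F : ℕ → Submodule (ZMod (P ^ k)) (Gk N P k S), F 0 = ⊥ ∧ F n = ⊤ ∧
      (∀ m, F m ≤ F (m + 1)) ∧
      (∀ (m : ℕ) (s : GQ), ∀ u ∈ F m, (Gk N P k S).ρ s u ∈ F m) ∧
      ∀ m < n, Nat.card (F (m + 1)) = P * Nat.card (F m)) (g : Gk N P k S) :
    IsUnitCoc P (Gk N P k S) (fun s => (Gk N P k S).ρ s g - g) :=
  (ordDatum_Gk_of_flag hPN hflag).peu g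

/-- **The characters of `Gk` are inertia-equivariant on `G0red`** (the hypothesis `hcyc` of
`S15/D/Greenberg` and `S15/D/ToStar`; `charFun d a` is `Greenberg.ev d a` by definition). -/
theorem hcyc_Gk_of_flag (hPN : ¬ P ∣ N)
    (hflag : ∃ n : ℕ, ∃ F : ℕ → Submodule (ZMod (P ^ k)) (Gk N P k S), F 0 = ⊥ ∧ F n = ⊤ ∧
      (∀ m, F m ≤ F (m + 1)) ∧
      (∀ (m : ℕ) (s : GQ), ∀ u ∈ F m, (Gk N P k S).ρ s u ∈ F m) ∧
      ∀ m < n, Nat.card (F (m + 1)) = P * Nat.card (F m))
    (s : GQ) (hs : s ∈ Iq P) (a : Gk N P k S) (ha : a ∈ G0red N P k S)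
    (d : Gk N P k S →+ Additive Qbarˣ) :
    charFun d ((Gk N P k S).ρ s a) = s (charFun d a) := by
  classical
  have hPk : NeZero (P ^ k) := ⟨pow_ne_zero _ (Fact.out : P.Prime).ne_zero⟩
  have hfin : Finite (Gk N P k S) := finite_Gk
  have hdvr : IsDiscreteValuationRing ↥(W (padicPlace P)) :=
    isDiscreteValuationRing_W (liesOverPrime_padicPlace P)
  let _ : Fintype ↥(G0red N P k S).toAddSubgroup := Fintype.ofFinite _
  obtain ⟨H, hH, hval, hloc, hG0⟩ := exists_hopfOrder_Gk (N := N) (P := P) (k := k) (S := S) hPN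
  have hInt := int_of_flag hPN hflag H hH (fun f hf s hs => hloc f hf s 0 (by rwa [sub_zero]))
  -- the restricted order
  have hst : ∀ (σ : ↥(Iq P)), ∀ x ∈ (G0red N P k S).toAddSubgroup,
      (Gk N P k S).ρ (σ : GQ) x ∈ (G0red N P k S).toAddSubgroup := by
    intro σ x hx
    have : (Gk N P k S).ρ (σ : GQ) x = ((Gk N P k S).ρ (σ : GQ) x - x) + x := by abel
    rw [this]
    exact (G0red N P k S).add_mem (inertia_Gk hPN σ.1 σ.2 x) hx
  let act0 : ↥(Iq P) → ↥(G0red N P k S).toAddSubgroup → ↥(G0red N P k S).toAddSubgroup :=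
    fun σ x => ⟨(Gk N P k S).ρ (σ : GQ) (x : Gk N P k S), hst σ _ x.2⟩
  have hH0 : IsHopfOrder (kappa (K := Qbar) (Iq P)) act0
      (H.map (pullback _ (G0red N P k S).toAddSubgroup.subtype)) :=
    hH.map_pullback (G0red N P k S).toAddSubgroup.subtype Subtype.coe_injective (fun σ t => rfl)
  have hinj : ∀ σ, Function.Injective (act0 σ) := by
    intro σ x y hxy
    apply Subtype.ext
    exact ((Gk N P k S).ρ.apply_bijective (σ : GQ)).1 (congrArg Subtype.val hxy)
  have hbij : ∀ σ, Function.Bijective (act0 σ) := fun σ =>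
    ⟨hinj σ, Finite.injective_iff_surjective.1 (hinj σ)⟩
  have hInt0 : ∀ f ∈ H.map (pullback _ (G0red N P k S).toAddSubgroup.subtype),
      (Fintype.card ↥(G0red N P k S).toAddSubgroup : Qbar)⁻¹ * ∑ t, f t ∈ padicPlace P := by
    rintro _ ⟨f, hf, rfl⟩
    exact hInt f hf
  have := char_equivariant (hfix_kappa (padicPlace P)) (padicPlace P)
    (algebraMap_W_Qbar_mem (padicPlace P))
    (fun x hx σ => valuation_sub_lt_one_of_mem_Iq σ.2 hx) hH0 hbij
    (fun σ s t => Subtype.ext (map_add _ _ _))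
    (Nat.cast_ne_zero.2 Fintype.card_ne_zero) hInt0
    (d := fun x : ↥(G0red N P k S).toAddSubgroup => charFun d (x : Gk N P k S))
    (fun s t => charFun_add d _ _) (charFun_zero d) ⟨s, hs⟩ ⟨a, ha⟩
  exact this.symm

/-- **`hpeu` and `hcyc` of `S15/D/ToStar` from its `hflag`, verbatim** (the labels of the layers are
not used). -/
theorem peu_and_hcyc_of_hflag [Fact N.Prime] (hPN : ¬ P ∣ N)
    (hflag : ∃ n : ℕ, ∃ F : ℕ → Submodule (ZMod (P ^ k)) (Gk N P k S), F 0 = ⊥ ∧ F n = ⊤ ∧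
      (∀ m, F m ≤ F (m + 1)) ∧
      (∀ (m : ℕ) (s : GQ), ∀ u ∈ F m, (Gk N P k S).ρ s u ∈ F m) ∧
      ∀ m < n, Nat.card (F (m + 1)) = P * Nat.card (F m) ∧
        (((∀ s : GQ, ∀ u ∈ F (m + 1), (Gk N P k S).ρ s u - u ∈ F m) ∧
            F (m + 1) ⊓ G0red N P k S ≤ F m) ∨
          ((∀ s : GQ, ∀ u ∈ F (m + 1),
              (Gk N P k S).ρ s u - ExtCitation.cycloExp P s • u ∈ F m) ∧
            F (m + 1) ≤ F m ⊔ G0red N P k S))) :
    (∀ g : Gk N P k S, IsUnitCoc P (Gk N P k S) (fun s => (Gk N P k S).ρ s g - g)) ∧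
      ∀ s ∈ Iq P, ∀ a ∈ G0red N P k S, ∀ d : Gk N P k S →+ Additive Qbarˣ,
        charFun d ((Gk N P k S).ρ s a) = s (charFun d a) := by
  have hw : ∃ n : ℕ, ∃ F : ℕ → Submodule (ZMod (P ^ k)) (Gk N P k S), F 0 = ⊥ ∧ F n = ⊤ ∧
      (∀ m, F m ≤ F (m + 1)) ∧
      (∀ (m : ℕ) (s : GQ), ∀ u ∈ F m, (Gk N P k S).ρ s u ∈ F m) ∧
      ∀ m < n, Nat.card (F (m + 1)) = P * Nat.card (F m) := by
    obtain ⟨n, F, h0, hn, hm, hs, hc⟩ := hflag
    exact ⟨n, F, h0, hn, hm, hs, fun m hm => (hc m hm).1⟩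
  exact ⟨fun g => peu_Gk_of_flag hPN hw g, fun s hs a ha d => hcyc_Gk_of_flag hPN hw s hs a ha d⟩

end Fermat.Agent.S15.P.GkChain
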