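/-
PROJECT M (S15), junction (K-P) + [G] (helper18): THE ORDINARY DATUM, `peu`, `hcyc` AND THE
LABELLED FLAG OF THE EISENSTEIN PART `Gk N P k S`, WITHOUT HYPOTHESES.

The order of the argument (no circle):
  raw flag (`G/CoarseJ.exists_flag_raw_Gk`, helper2: Eichler-Shimura + Chebotarev, no input at `P`)
  → `GkChain`: `Int` along the flag intersected with `G0red` (helper6), hence `peu` and `hcyc`
  → labels (`D/Label.hlab_of_hcyc`, helper28)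
  → the labelled flag (`G/CoarseJ.exists_flag_Gk`, helper2) = the flag hypothesis of the descent.
-/
import Fermat.Agent.S15.P.GkChain
import Fermat.Agent.S15.G.CoarseJ
import Fermat.Agent.S15.D.Label

set_option autoImplicit false
set_option synthInstance.maxHeartbeats 400000

namespace Fermat.Agent.S15.P.GkFinal

open ModularCurve
open Fermat.Agent.S15.D Fermat.Agent.S15.D.Greenberg Fermat.Agent.S15.K.Star
  Fermat.Agent.S15.K.Ord Fermat.Agent.S15.K.Kummer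
open Fermat.Agent.S56.Coh Fermat.Agent.CFT.Bridge Fermat.Agent.CFT.LocalBridge
open Fermat.Agent.S15.P.GkChain Fermat.Agent.S15.G.CoarseJ

variable {N : ℕ} [NeZero N] {P k : ℕ} {S : Set ℕ} [Fact P.Prime]

/-- The unlabelled flag of `Gk`, in the shape consumed by `GkChain`. -/
theorem flagW_Gk (hSfin : S.Finite)
    (hS : ∀ r : Nat.Primes, (r : ℕ) ∉ S → ¬ (r : ℕ) ∣ N ∧ (r : ℕ) ≠ P) :
    ∃ n : ℕ, ∃ F : ℕ → Submodule (ZMod (P ^ k)) (Gk N P k S), F 0 = ⊥ ∧ F n = ⊤ ∧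
      (∀ m, F m ≤ F (m + 1)) ∧
      (∀ (m : ℕ) (s : GQ), ∀ u ∈ F m, (Gk N P k S).ρ s u ∈ F m) ∧
      ∀ m < n, Nat.card (F (m + 1)) = P * Nat.card (F m) := by
  have hPk : NeZero (P ^ k) := ⟨pow_ne_zero _ (Fact.out : P.Prime).ne_zero⟩
  obtain ⟨n, F, h0, hn, hm, hs, hc⟩ := exists_flag_raw_Gk N P k S hSfin hS ⊥
  exact ⟨n, F, h0, hn, hm, hs, fun m hm => (hc m hm).1⟩

/-- **The ordinary datum of `(Gk, G0red)`.** -/
theorem ordDatum_Gk [Fact N.Prime] (hPN : ¬ P ∣ N) (hSfin : S.Finite)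
    (hS : ∀ r : Nat.Primes, (r : ℕ) ∉ S → ¬ (r : ℕ) ∣ N ∧ (r : ℕ) ≠ P) :
    OrdDatum P N (Gk N P k S) (G0red N P k S) :=
  ordDatum_Gk_of_flag hPN (flagW_Gk hSfin hS)

/-- **`hpeu`.** -/
theorem peu_Gk [Fact N.Prime] (hPN : ¬ P ∣ N) (hSfin : S.Finite)
    (hS : ∀ r : Nat.Primes, (r : ℕ) ∉ S → ¬ (r : ℕ) ∣ N ∧ (r : ℕ) ≠ P) (g : Gk N P k S) :
    IsUnitCoc P (Gk N P k S) (fun s => (Gk N P k S).ρ s g - g) :=
  peu_Gk_of_flag hPN (flagW_Gk hSfin hS) g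

/-- **`hcyc`**, in the literal shape of `S15/D/Greenberg`. -/
theorem hcyc_Gk (hPN : ¬ P ∣ N) (hSfin : S.Finite)
    (hS : ∀ r : Nat.Primes, (r : ℕ) ∉ S → ¬ (r : ℕ) ∣ N ∧ (r : ℕ) ≠ P) :
    ∀ s ∈ Iq P, ∀ a ∈ G0red N P k S, ∀ d : Ch (Gk N P k S),
      ev d ((Gk N P k S).ρ s a) = s (ev d a) :=
  fun s hs a ha d => hcyc_Gk_of_flag hPN (flagW_Gk hSfin hS) s hs a ha d

/-- **`hflag`**: the labelled flag of `Gk`, the flag hypothesis of the descent, verbatim. -/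
theorem hflag_Gk [Fact N.Prime] (hPN : ¬ P ∣ N) (hSfin : S.Finite)
    (hS : ∀ r : Nat.Primes, (r : ℕ) ∉ S → ¬ (r : ℕ) ∣ N ∧ (r : ℕ) ≠ P) :
    ∃ n : ℕ, ∃ F : ℕ → Submodule (ZMod (P ^ k)) (Gk N P k S), F 0 = ⊥ ∧ F n = ⊤ ∧
      (∀ m, F m ≤ F (m + 1)) ∧
      (∀ (m : ℕ) (s : GQ), ∀ u ∈ F m, (Gk N P k S).ρ s u ∈ F m) ∧
      ∀ m < n, Nat.card (F (m + 1)) = P * Nat.card (F m) ∧
        (((∀ s : GQ, ∀ u ∈ F (m + 1), (Gk N P k S).ρ s u - u ∈ F m) ∧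
            F (m + 1) ⊓ G0red N P k S ≤ F m) ∨
          ((∀ s : GQ, ∀ u ∈ F (m + 1),
              (Gk N P k S).ρ s u - ExtCitation.cycloExp P s • u ∈ F m) ∧
            F (m + 1) ≤ F m ⊔ G0red N P k S)) := by
  have hPk : NeZero (P ^ k) := ⟨pow_ne_zero _ (Fact.out : P.Prime).ne_zero⟩
  have hfin : Finite (Gk N P k S) := Fermat.Agent.S15.K.Count.finite_Gk
  have hpow : ∀ a : Gk N P k S, (P ^ k) • a = 0 := fun a =>
    Subtype.ext (Subtype.ext (mem_Tm_iff.1 (a.1 : ↥(Tm N (P ^ k))).2))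
  exact exists_flag_Gk N P k S hSfin hS (G0red N P k S)
    (Fermat.Agent.S15.D.Label.hlab_of_hcyc (ordDatum_Gk hPN hSfin hS) hpow
      (hcyc_Gk hPN hSfin hS))

end Fermat.Agent.S15.P.GkFinal
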