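/-
PROJECT M (S15), block (K-P), leaf (O6)/(Q6): **the rank count**.

`M` a finite free `ℤ_[p]`-module (a Tate module), `s` an endomorphism (one element of the inertia
group at `p`) with `(s - 1)(s - u) = 0`, `u = χ(s)`.

* (B) `det_eq_pow_finrank_ker` (over any principal ideal domain): `det s = u ^ rank ker (s - u)`;
  hence `finrank_ker_eq_of_det` : if `det s = u ^ r` and `u` is not a root of unity then
  `rank ker (s - u) = r`.
* (A) `card_le_of_finrank_ker_le` : if `rank ker (s - u) ≤ r` and `(u - 1) ∣ p ^ c0`, then every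
  subgroup `A0` of `M / p ^ k M` which is killed by `s - u` has at most `p ^ (k r + n c0)` elements,
  `n = rank M`: the connected part of `J[p ^ k]_𝔓` has at most (a constant times) the square root
  of the number of elements of `J[p ^ k]_𝔓`.
-/
import Mathlib

set_option autoImplicit false

namespace Fermat.Agent.S15.P.RankCount

open scoped BigOperators

section Eig

variable {R M : Type*} [CommRing R] [AddCommGroup M] [Module R M]

/-- the `u`-eigenlattice -/
abbrev eig (s : M →ₗ[R] M) (u : R) : Submodule R M := LinearMap.ker (s - u • LinearMap.id)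

theorem mem_eig {s : M →ₗ[R] M} {u : R} {x : M} : x ∈ eig s u ↔ s x = u • x := by
  simp [eig, LinearMap.mem_ker, sub_eq_zero]

theorem sub_mem_eig {s : M →ₗ[R] M} {u : R}
    (hrel : ∀ x, s (s x) - (1 + u) • s x + u • x = 0) (x : M) : s x - x ∈ eig s u := by
  rw [mem_eig, map_sub, smul_sub]
  have h := hrel x
  rw [add_smul, one_smul] at h
  rw [← sub_eq_zero, ← h]
  abel

theorem sub_smul_mem_eig_one {s : M →ₗ[R] M} {u : R}
    (hrel : ∀ x, s (s x) - (1 + u) • s x + u • x = 0) (x : M) : s x - u • x ∈ eig s 1 := by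
  rw [mem_eig, map_sub, map_smul, one_smul]
  have h := hrel x
  rw [add_smul, one_smul] at h
  rw [← sub_eq_zero, ← h]
  abel

end Eig

section Det

variable {R M : Type*} [CommRing R] [IsDomain R] [IsPrincipalIdealRing R] [AddCommGroup M]
  [Module R M] [Module.Free R M] [Module.Finite R M]

/-- **(B)** the determinant of `s` is `u ^ rank (ker (s - u))`. -/
theorem det_eq_pow_finrank_ker (s : M →ₗ[R] M) (u : R) (hu : u ≠ 1)
    (hrel : ∀ x, s (s x) - (1 + u) • s x + u • x = 0) :
    LinearMap.det s = u ^ Module.finrank R (eig s u) := by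
  classical
  set M1 : Submodule R M := eig s 1 with hM1
  set Mu : Submodule R M := eig s u with hMu
  have hu1 : u - 1 ≠ 0 := sub_ne_zero.2 hu
  -- the sum map
  let φ : (M1 × Mu) →ₗ[R] M := M1.subtype.coprod Mu.subtype
  have hφ : ∀ z : M1 × Mu, φ z = (z.1 : M) + (z.2 : M) := fun z => by simp [φ]
  have hφinj : Function.Injective φ := by
    rw [← LinearMap.ker_eq_bot, LinearMap.ker_eq_bot']
    rintro ⟨x, y⟩ h
    rw [hφ] at h
    simp only at h
    have hx : s (x : M) = (1 : R) • (x : M) := mem_eig.1 x.2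
    have hy : s (y : M) = u • (y : M) := mem_eig.1 y.2
    have h2 := congrArg s h
    rw [map_add, hx, hy, map_zero, one_smul] at h2
    have h3 : (u - 1) • (y : M) = 0 := by
      rw [sub_smul, one_smul]
      have h4 : u • (y : M) - (y : M) = ((x : M) + u • (y : M)) - ((x : M) + (y : M)) := by abel
      rw [h4, h2, h, sub_zero]
    have hy0 : (y : M) = 0 := (smul_eq_zero.1 h3).resolve_left hu1
    have hx0 : (x : M) = 0 := by rw [hy0, add_zero] at h; exact h
    exact Prod.ext (Subtype.ext hx0) (Subtype.ext hy0)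
  -- the inverse up to `u - 1`
  let ψ : M →ₗ[R] (M1 × Mu) :=
    LinearMap.prod
      (LinearMap.codRestrict M1 (-(s - u • LinearMap.id)) fun x => by
        rw [LinearMap.neg_apply, LinearMap.sub_apply, LinearMap.smul_apply, LinearMap.id_apply]
        exact M1.neg_mem (sub_smul_mem_eig_one hrel x))
      (LinearMap.codRestrict Mu (s - LinearMap.id) fun x => by
        rw [LinearMap.sub_apply, LinearMap.id_apply]
        exact sub_mem_eig hrel x)
  have hφψ : ∀ x, φ (ψ x) = (u - 1) • x := by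
    intro x
    rw [hφ]
    show (-(s - u • LinearMap.id) : M →ₗ[R] M) x + (s - LinearMap.id : M →ₗ[R] M) x = (u - 1) • x
    rw [LinearMap.neg_apply, LinearMap.sub_apply, LinearMap.smul_apply, LinearMap.id_apply,
      LinearMap.sub_apply, LinearMap.id_apply, sub_smul, one_smul]
    abel
  have hψinj : Function.Injective ψ := by
    intro x y h
    have h1 := congrArg φ h
    rw [hφψ, hφψ] at h1
    exact smul_right_injective M hu1 h1
  -- ranks
  have hrank : Module.finrank R (M1 × Mu) = Module.finrank R M :=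
    le_antisymm (LinearMap.finrank_le_finrank_of_injective hφinj)
      (LinearMap.finrank_le_finrank_of_injective hψinj)
  let ε : M ≃ₗ[R] (M1 × Mu) := LinearEquiv.ofFinrankEq M (M1 × Mu) hrank.symm
  -- the diagonal map
  let t : (M1 × Mu) →ₗ[R] (M1 × Mu) :=
    LinearMap.prodMap LinearMap.id (u • LinearMap.id)
  have hst : ∀ z, s (φ z) = φ (t z) := by
    rintro ⟨x, y⟩
    rw [hφ, hφ, map_add]
    have hx : s (x : M) = (1 : R) • (x : M) := mem_eig.1 x.2
    have hy : s (y : M) = u • (y : M) := mem_eig.1 y.2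
    simp [t, hx, hy]
  let φ' : M →ₗ[R] M := φ ∘ₗ (ε : M →ₗ[R] (M1 × Mu))
  have hφ'inj : Function.Injective φ' := hφinj.comp ε.injective
  have hdetφ' : LinearMap.det φ' ≠ 0 := by
    intro h0
    have := LinearMap.det_eq_zero_iff_ker_ne_bot.1 h0
    exact this (LinearMap.ker_eq_bot.2 hφ'inj)
  have hcomm : s ∘ₗ φ' = φ' ∘ₗ ((ε.symm : (M1 × Mu) →ₗ[R] M) ∘ₗ t ∘ₗ (ε : M →ₗ[R] (M1 × Mu))) := by
    ext x
    simp [φ', hst]
  have hdet := congrArg LinearMap.det hcomm
  rw [LinearMap.det_comp, LinearMap.det_comp] at hdet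
  have hconj : LinearMap.det ((ε.symm : (M1 × Mu) →ₗ[R] M) ∘ₗ t ∘ₗ (ε : M →ₗ[R] (M1 × Mu)))
      = LinearMap.det t := by
    have := LinearMap.det_conj t ε.symm
    simpa using this
  rw [hconj] at hdet
  have hdett : LinearMap.det t = u ^ Module.finrank R Mu := by
    simp only [t]
    rw [LinearMap.det_prodMap, LinearMap.det_id, one_mul, LinearMap.det_smul, LinearMap.det_id,
      mul_one]
  rw [hdett, mul_comm] at hdet
  exact mul_left_cancel₀ hdetφ' hdet

/-- **(B')** the rank of the `u`-eigenlattice from the determinant. -/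
theorem finrank_ker_eq_of_det (s : M →ₗ[R] M) (u : R)
    (hrel : ∀ x, s (s x) - (1 + u) • s x + u • x = 0) {r : ℕ}
    (hdet : LinearMap.det s = u ^ r) (hu : ∀ a b : ℕ, u ^ a = u ^ b → a = b) :
    Module.finrank R (eig s u) = r := by
  have hu1 : u ≠ 1 := by
    intro h
    have := hu 0 1 (by rw [h, one_pow, one_pow])
    exact absurd this (by norm_num)
  have := det_eq_pow_finrank_ker s u hu1 hrel
  rw [hdet] at this
  exact (hu _ _ this).symm

end Det

section Count

variable {p : ℕ} [Fact p.Prime]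

/-- a module over `ℤ_[p]` spanned by `m` elements has at most `p ^ (j m)` elements modulo
`p ^ j`: the range of an additive map killing `p ^ j L`. -/
theorem ncard_range_le {L : Type*} [AddCommGroup L] [Module ℤ_[p] L] {m : ℕ} (b : Fin m → L)
    (hb : Submodule.span ℤ_[p] (Set.range b) = ⊤) {B : Type*} [AddCommGroup B] (f : L →+ B)
    (j : ℕ) (hf : ∀ x, f ((p : ℤ_[p]) ^ j • x) = 0) :
    (Set.range f).Finite ∧ (Set.range f).ncard ≤ p ^ (j * m) := by
  classical
  -- `f (a • y)` depends only on `a` modulo `p ^ j`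
  have key : ∀ (a : ℤ_[p]) (y : L), f (a • y) = (a.appr j) • f y := by
    intro a y
    obtain ⟨c, hc⟩ := Ideal.mem_span_singleton.1 (PadicInt.appr_spec j a)
    have : a = (a.appr j : ℤ_[p]) + (p : ℤ_[p]) ^ j * c := by rw [← hc]; ring
    rw [this, add_smul, mul_smul, map_add, hf, add_zero, Nat.cast_smul_eq_nsmul, map_nsmul]
    congr 1
    rw [← this]
  let g : (Fin m → Fin (p ^ j)) → B := fun c => ∑ i, (c i : ℕ) • f (b i)
  have hsub : Set.range f ⊆ Set.range g := by
    rintro _ ⟨x, rfl⟩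
    have hx : x ∈ Submodule.span ℤ_[p] (Set.range b) := by rw [hb]; trivial
    obtain ⟨a, rfl⟩ := (Submodule.mem_span_range_iff_exists_fun ℤ_[p]).1 hx
    refine ⟨fun i => ⟨(a i).appr j, PadicInt.appr_lt _ _⟩, ?_⟩
    simp only [g, map_sum, key]
  have hfin : (Set.range g).Finite := Set.finite_range g
  refine ⟨hfin.subset hsub, (Set.ncard_le_ncard hsub hfin).trans ?_⟩
  have h1 : (Set.range g).ncard ≤ (Set.univ : Set (Fin m → Fin (p ^ j))).ncard := by
    rw [← Set.image_univ]
    exact Set.ncard_image_le Set.finite_univ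
  refine h1.trans ?_
  rw [Set.ncard_univ, Nat.card_eq_fintype_card, Fintype.card_fun, Fintype.card_fin,
    Fintype.card_fin, pow_mul]

variable {M : Type*} [AddCommGroup M] [Module ℤ_[p] M] [Module.Free ℤ_[p] M]
  [Module.Finite ℤ_[p] M]

/-- **(A)** the count. -/
theorem card_le_of_finrank_ker_le (s : M →ₗ[ℤ_[p]] M) (u : ℤ_[p])
    (hrel : ∀ x, s (s x) - (1 + u) • s x + u • x = 0)
    {c0 : ℕ} (hu : (u - 1) ∣ (p : ℤ_[p]) ^ c0) {r : ℕ}
    (hrk : Module.finrank ℤ_[p] (eig s u) ≤ r)
    {A : Type*} [AddCommGroup A] (π : M →+ A) (k : ℕ)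
    (hπ : ∀ x, π ((p : ℤ_[p]) ^ k • x) = 0)
    (hπ' : ∀ x, π x = 0 → ∃ y, x = (p : ℤ_[p]) ^ k • y)
    (A0 : AddSubgroup A) (hA0 : ∀ a ∈ A0, ∃ x, π x = a)
    (h0 : ∀ x, π x ∈ A0 → ∃ y, s x - u • x = (p : ℤ_[p]) ^ k • y) :
    Nat.card A0 ≤ p ^ (k * r + Module.finrank ℤ_[p] M * c0) := by
  classical
  set Mu : Submodule ℤ_[p] M := eig s u with hMu
  set m := Module.finrank ℤ_[p] Mu with hm
  set n := Module.finrank ℤ_[p] M with hn
  have hpne : (p : ℤ_[p]) ≠ 0 := by exact_mod_cast (Fact.out : p.Prime).ne_zero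
  -- first range: the image of the eigenlattice
  let f1 : Mu →+ A := π.comp Mu.subtype.toAddMonoidHom
  obtain ⟨hS1fin, hS1⟩ := ncard_range_le (Module.finBasis ℤ_[p] Mu) (Module.finBasis ℤ_[p] Mu).span_eq
    f1 k (fun x => by simpa [f1] using hπ (x : M))
  -- second range: the `p ^ c0`-torsion of `A`
  let f2 : M →+ A := π.comp (DistribSMul.toAddMonoidHom M ((p : ℤ_[p]) ^ (k - c0)))
  obtain ⟨hS2fin, hS2⟩ := ncard_range_le (Module.finBasis ℤ_[p] M) (Module.finBasis ℤ_[p] M).span_eq
    f2 c0 (fun x => by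
      have : (p : ℤ_[p]) ^ (k - c0) • (p : ℤ_[p]) ^ c0 • x
          = (p : ℤ_[p]) ^ k • ((p : ℤ_[p]) ^ (k - c0 + c0 - k) • x) := by
        rw [smul_smul, smul_smul, ← pow_add, ← pow_add]
        congr 2
        omega
      simp only [f2, AddMonoidHom.comp_apply, DistribSMul.toAddMonoidHom_apply]
      rw [this, hπ])
  -- the two inclusions
  have hnat : ∀ (j : ℕ) (x : M), π ((p : ℤ_[p]) ^ j • x) = p ^ j • π x := by
    intro j x
    have : (p : ℤ_[p]) ^ j • x = (p ^ j : ℕ) • x := by
      rw [← Nat.cast_smul_eq_nsmul ℤ_[p]]; push_cast; rfl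
    rw [this, map_nsmul]
  have hin1 : ∀ a ∈ A0, p ^ c0 • a ∈ Set.range f1 := by
    intro a ha
    obtain ⟨x, rfl⟩ := hA0 a ha
    obtain ⟨y, hy⟩ := h0 x ha
    obtain ⟨v, hv⟩ := hu
    have hz : s x - x ∈ Mu := sub_mem_eig hrel x
    refine ⟨⟨v • (s x - x), Mu.smul_mem v hz⟩, ?_⟩
    have h1 : (p : ℤ_[p]) ^ c0 • x = v • (s x - x) - (p : ℤ_[p]) ^ k • (v • y) := by
      rw [hv, smul_comm ((p : ℤ_[p]) ^ k) v y, ← hy, ← smul_sub, mul_comm, mul_smul]
      congr 1
      rw [sub_smul, one_smul]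
      abel
    rw [← hnat, h1, map_sub, hπ, sub_zero]
    rfl
  have hin2 : ∀ a ∈ A0, p ^ c0 • a = 0 → a ∈ Set.range f2 := by
    intro a ha h
    obtain ⟨x, rfl⟩ := hA0 a ha
    rw [← hnat] at h
    obtain ⟨y, hy⟩ := hπ' _ h
    rcases Nat.lt_or_ge k c0 with hk | hk
    · refine ⟨x, ?_⟩
      simp only [f2, AddMonoidHom.comp_apply, DistribSMul.toAddMonoidHom_apply]
      rw [Nat.sub_eq_zero_of_le hk.le, pow_zero, one_smul]
    · refine ⟨y, ?_⟩
      simp only [f2, AddMonoidHom.comp_apply, DistribSMul.toAddMonoidHom_apply]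
      congr 1
      have h2 : (p : ℤ_[p]) ^ c0 • ((p : ℤ_[p]) ^ (k - c0) • y - x) = 0 := by
        rw [smul_sub, hy, smul_smul, ← pow_add, Nat.add_sub_cancel' hk, sub_self]
      have := (smul_eq_zero.1 h2).resolve_left (pow_ne_zero _ hpne)
      exact sub_eq_zero.1 this
  -- counting
  let μ : A0 →+ A := (nsmulAddMonoidHom (p ^ c0)).comp A0.subtype
  have hcard : Nat.card A0 = Nat.card μ.ker * Nat.card μ.range := by
    rw [← AddSubgroup.index_ker, AddSubgroup.card_mul_index]
  have hker : Nat.card μ.ker ≤ (Set.range f2).ncard := by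
    rw [← Nat.card_coe_set_eq]
    have : Finite (Set.range f2) := hS2fin.to_subtype
    refine Nat.card_le_card_of_injective
      (fun z : μ.ker => (⟨(z : A0), hin2 _ (z : A0).2 (by
        have := z.2
        rw [AddMonoidHom.mem_ker] at this
        simpa [μ] using this)⟩ : Set.range f2)) ?_
    intro z z' h
    have := congrArg Subtype.val h
    exact Subtype.ext (Subtype.ext this)
  have hrange : Nat.card μ.range ≤ (Set.range f1).ncard := by
    have h1 : (μ.range : Set A) ⊆ Set.range f1 := by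
      rintro _ ⟨a, rfl⟩
      have := hin1 a a.2
      simpa [μ] using this
    have := Set.ncard_le_ncard h1 hS1fin
    rwa [← Nat.card_coe_set_eq] at this
  calc Nat.card A0 = Nat.card μ.ker * Nat.card μ.range := hcard
    _ ≤ p ^ (c0 * n) * p ^ (k * m) := Nat.mul_le_mul (hker.trans hS2) (hrange.trans hS1)
    _ ≤ p ^ (c0 * n) * p ^ (k * r) :=
        Nat.mul_le_mul_left _ (Nat.pow_le_pow_right (Fact.out : p.Prime).pos
          (Nat.mul_le_mul_left _ hrk))
    _ = p ^ (k * r + n * c0) := by rw [← pow_add]; congr 1; ring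

/-- the exact number of elements of `M / p ^ k M`. -/
theorem card_eq_pow {A : Type*} [AddCommGroup A] (π : M →+ A) (k : ℕ)
    (hsurj : Function.Surjective π)
    (hπ : ∀ x, π x = 0 ↔ ∃ y, x = (p : ℤ_[p]) ^ k • y) :
    Nat.card A = p ^ (k * Module.finrank ℤ_[p] M) := by
  classical
  set n := Module.finrank ℤ_[p] M with hn
  let b := Module.finBasis ℤ_[p] M
  let g : M →+ (Fin n → ZMod (p ^ k)) :=
    { toFun := fun x i => PadicInt.toZModPow k (b.repr x i)
      map_zero' := by funext i; simp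
      map_add' := fun x y => by funext i; simp }
  have hg : ∀ x i, g x i = PadicInt.toZModPow k (b.repr x i) := fun _ _ => rfl
  have hgsurj : Function.Surjective g := by
    intro c
    choose a ha using fun i => ZMod.ringHom_surjective (PadicInt.toZModPow (p := p) k) (c i)
    refine ⟨∑ i, a i • b i, ?_⟩
    funext i
    rw [hg, ← ha i, b.repr_sum_self]
  have hker : π.ker = g.ker := by
    ext x
    rw [AddMonoidHom.mem_ker, AddMonoidHom.mem_ker, hπ]
    constructor
    · rintro ⟨y, rfl⟩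
      funext i
      rw [hg, map_smul, Finsupp.smul_apply, smul_eq_mul, map_mul, map_pow, map_natCast]
      have : ((p : ZMod (p ^ k)) ^ k) = 0 := by
        have := ZMod.natCast_self (p ^ k)
        rwa [Nat.cast_pow] at this
      rw [this, zero_mul]
      rfl
    · intro h
      have h1 : ∀ i, ∃ c : ℤ_[p], b.repr x i = (p : ℤ_[p]) ^ k * c := by
        intro i
        have h2 : b.repr x i ∈ RingHom.ker (PadicInt.toZModPow (p := p) k) := by
          rw [RingHom.mem_ker, ← hg, h]; rfl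
        rw [PadicInt.ker_toZModPow, Ideal.mem_span_singleton] at h2
        exact h2
      choose c hc using h1
      refine ⟨∑ i, c i • b i, ?_⟩
      rw [Finset.smul_sum]
      conv_lhs => rw [← b.sum_repr x]
      refine Finset.sum_congr rfl fun i _ => ?_
      rw [hc i, mul_smul]
  have e1 : Nat.card A = Nat.card (M ⧸ π.ker) :=
    Nat.card_congr (QuotientAddGroup.quotientKerEquivOfSurjective π hsurj).symm.toEquiv
  have e2 : Nat.card (M ⧸ g.ker) = Nat.card (Fin n → ZMod (p ^ k)) :=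
    Nat.card_congr (QuotientAddGroup.quotientKerEquivOfSurjective g hgsurj).toEquiv
  rw [e1, hker, e2]
  have : NeZero (p ^ k) := ⟨pow_ne_zero _ (Fact.out : p.Prime).ne_zero⟩
  rw [Nat.card_eq_fintype_card, Fintype.card_fun, ZMod.card, Fintype.card_fin, pow_mul]

/-- **(A)+(B), squared form**: the ordinarity inequality `|A0| ^ 2 ≤ C |A|` with
`C = p ^ (2 n c0)` independent of `k`. -/
theorem sq_card_le_of_det (s : M →ₗ[ℤ_[p]] M) (u : ℤ_[p])
    (hrel : ∀ x, s (s x) - (1 + u) • s x + u • x = 0)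
    {c0 : ℕ} (hu : (u - 1) ∣ (p : ℤ_[p]) ^ c0) {r : ℕ}
    (hrank : Module.finrank ℤ_[p] M = 2 * r)
    (hdet : LinearMap.det s = u ^ r) (hu1 : ∀ a b : ℕ, u ^ a = u ^ b → a = b)
    {A : Type*} [AddCommGroup A] (π : M →+ A) (k : ℕ) (hsurj : Function.Surjective π)
    (hπ : ∀ x, π x = 0 ↔ ∃ y, x = (p : ℤ_[p]) ^ k • y)
    (A0 : AddSubgroup A)
    (h0 : ∀ x, π x ∈ A0 → ∃ y, s x - u • x = (p : ℤ_[p]) ^ k • y) :
    Nat.card A0 ^ 2 ≤ p ^ (2 * (2 * r) * c0) * Nat.card A := by
  have hrk : Module.finrank ℤ_[p] (eig s u) ≤ r :=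
    (finrank_ker_eq_of_det s u hrel hdet hu1).le
  have h1 := card_le_of_finrank_ker_le s u hrel hu hrk π k
    (fun x => (hπ _).2 ⟨x, rfl⟩) (fun x hx => (hπ x).1 hx) A0 (fun a _ => hsurj a) h0
  have h2 := card_eq_pow π k hsurj hπ
  rw [hrank] at h1 h2
  calc Nat.card A0 ^ 2 ≤ (p ^ (k * r + 2 * r * c0)) ^ 2 := Nat.pow_le_pow_left h1 2
    _ = p ^ (2 * (2 * r) * c0) * p ^ (k * (2 * r)) := by
        rw [← pow_mul, ← pow_add]; congr 1; ring
    _ = p ^ (2 * (2 * r) * c0) * Nat.card A := by rw [h2]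

end Count

end Fermat.Agent.S15.P.RankCount
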