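import Fermat.Agent.S30.Algebra.Cyclotomic
import Fermat.Agent.S14.FieldDict

/-!
# PROJECT M (S15), block (K-P), leaf `CycAct` (helper16): from characters to the cyclotomic action

The junction `(Q5a)`: if an element `s` of `Gal(ℚ̄/ℚ)` transports every character of a finite abelian
group `A` killed by `P ^ k` (`d (y) = s (d x)` for all `d : A →+ Additive ℚ̄ˣ`), then
`y = cycExp P k s • x`, where `cycExp P k s = (cyc P s mod P ^ k).val` is the exponent of the
`P`-adic cyclotomic character of main (`S30/Algebra/Cyclotomic.cyc`, the character of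
`S35/DetCyc`); and `cycExp P k s ≡ cycloChar P s mod P` (the prelude's mod `P` character).

* `eq_nsmul_of_forall_char` : the abstract statement (any field with enough roots of unity);
* `cycExp`, `cycExp_spec`, `natCast_cycExp` ;
* `eq_cycExp_nsmul_of_forall_char` : the junction over `ℚ̄`;
* `exists_int_smul_of_forall_char` : the same in the shape `∃ n : ℤ, (n : ZMod P) = cycloChar P s ∧
  y = n • x` (the `hlab` of `S15/G/CoarseJ`).
-/

set_option autoImplicit false
set_option linter.unusedSectionVars false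

noncomputable section

namespace Fermat.Agent.S15.P.CycAct

open Fermat.Agent.S30.Algebra.Cyclotomic

local notation "Qbar" => AlgebraicClosure ℚ
local notation "GQ" => (AlgebraicClosure ℚ ≃ₐ[ℚ] AlgebraicClosure ℚ)

section Abstract

variable {T : Type*} [AddCommGroup T] [Finite T] {K : Type*} [Field K]

/-- **Characters detect the cyclotomic action.**  `T` finite abelian killed by `m`, `σ` a ring
endomorphism of `K` raising the `m`-th roots of unity to the `c`-th power; if `d y = σ (d x)` for
every multiplicative character `d : T → K`, then `y = c • x`. -/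
theorem eq_nsmul_of_forall_char
    [HasEnoughRootsOfUnity K (Monoid.exponent (Multiplicative T))] {m : ℕ}
    (hm : ∀ t : T, m • t = 0) (σ : K →+* K) (c : ℕ) (hc : ∀ ζ : K, ζ ^ m = 1 → σ ζ = ζ ^ c)
    (x y : T)
    (h : ∀ d : T → K, d 0 = 1 → (∀ s t, d (s + t) = d s * d t) → d y = σ (d x)) :
    y = c • x := by
  by_contra hne
  have hne' : Multiplicative.ofAdd (y - c • x) ≠ 1 := by
    intro h1
    apply hne
    have : y - c • x = 0 := by
      have := congrArg Multiplicative.toAdd h1
      simpa using this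
    exact sub_eq_zero.1 this
  obtain ⟨φ, hφ⟩ := CommGroup.exists_apply_ne_one_of_hasEnoughRootsOfUnity (Multiplicative T) K hne'
  set d : T → K := fun t => ((φ (Multiplicative.ofAdd t) : Kˣ) : K) with hd
  have hd0 : d 0 = 1 := by
    simp [hd]
  have hdadd : ∀ s t, d (s + t) = d s * d t := by
    intro s t
    simp [hd, ofAdd_add]
  have hdn : ∀ (n : ℕ) (t : T), d (n • t) = d t ^ n := by
    intro n t
    simp [hd, ofAdd_nsmul]
  have hroot : d x ^ m = 1 := by
    rw [← hdn, hm, hd0]
  have h1 : d y = d (c • x) := by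
    rw [h d hd0 hdadd, hc _ hroot, hdn]
  apply hφ
  have h2 : φ (Multiplicative.ofAdd y) = φ (Multiplicative.ofAdd (c • x)) := Units.ext h1
  rw [ofAdd_sub, map_div, h2, div_self']

end Abstract

section Cyc

variable (P : ℕ) [Fact P.Prime]

/-- the exponent of the `P`-adic cyclotomic character modulo `P ^ k` -/
def cycExp (k : ℕ) (s : GQ) : ℕ := (((cyc P s : ℤ_[P]ˣ) : ℤ_[P]).toZModPow k).val

theorem cycExp_spec (k : ℕ) (s : GQ) (t : Qbar) (ht : t ^ P ^ k = 1) :
    s t = t ^ cycExp P k s :=
  cyc_spec P s k t ht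

/-- modulo `P` the exponent is the prelude's cyclotomic character -/
theorem natCast_cycExp {k : ℕ} (hk : 0 < k) (s : GQ) :
    ((cycExp P k s : ℕ) : ZMod P) = ((ExtCitation.cycloChar P s : (ZMod P)ˣ) : ZMod P) := by
  have hP : P.Prime := Fact.out
  have : NeZero P := ⟨hP.ne_zero⟩
  obtain ⟨ζ, hζ⟩ := HasEnoughRootsOfUnity.exists_primitiveRoot Qbar P
  have h1 : ζ ^ P ^ k = 1 := by
    obtain ⟨j, rfl⟩ : ∃ j, k = j + 1 := ⟨k - 1, by omega⟩
    rw [pow_succ', pow_mul, hζ.pow_eq_one, one_pow]
  have h2 := cycExp_spec P k s ζ h1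
  have h3 := Fermat.Agent.S14.FieldDict.cycloChar_spec hζ.pow_eq_one s
  rw [h2] at h3
  have e : ∀ n : ℕ, ζ ^ (n % P) = ζ ^ n := fun n => by
    conv_rhs => rw [← Nat.mod_add_div n P]
    rw [pow_add, pow_mul, hζ.pow_eq_one, one_pow, mul_one]
  have h4 : cycExp P k s % P =
      ((ExtCitation.cycloChar P s : (ZMod P)ˣ) : ZMod P).val % P := by
    apply hζ.pow_inj (Nat.mod_lt _ hP.pos) (Nat.mod_lt _ hP.pos)
    rw [e, e, h3]
  have h5 : ((cycExp P k s : ℕ) : ZMod P) =
      ((((ExtCitation.cycloChar P s : (ZMod P)ˣ) : ZMod P).val : ℕ) : ZMod P) :=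
    (ZMod.natCast_eq_natCast_iff _ _ _).2 h4
  rw [h5, ZMod.natCast_val, ZMod.cast_id]

variable {P}

/-- **(Q5a), junction**: a Galois element which transports every character of `A` from `x` to `y`
sends `x` to `cycExp P k s • x`. -/
theorem eq_cycExp_nsmul_of_forall_char {A : Type*} [AddCommGroup A] [Finite A] {k : ℕ}
    (hA : ∀ t : A, P ^ k • t = 0) (s : GQ) (x y : A)
    (h : ∀ d : A →+ Additive Qbarˣ,
      ((Additive.toMul (d y) : Qbarˣ) : Qbar) = s ((Additive.toMul (d x) : Qbarˣ) : Qbar)) :
    y = cycExp P k s • x := by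
  have hexp : Monoid.exponent (Multiplicative A) ≠ 0 := by
    have := Monoid.exponent_ne_zero_of_finite (G := Multiplicative A)
    exact this
  have : NeZero (Monoid.exponent (Multiplicative A)) := ⟨hexp⟩
  refine eq_nsmul_of_forall_char (K := Qbar) hA (s : Qbar →+* Qbar) (cycExp P k s)
    (fun ζ hζ => cycExp_spec P k s ζ hζ) x y fun d hd0 hdadd => ?_
  -- turn the multiplicative function `d` into an additive character with values in the units
  have hunit : ∀ t, d t ≠ 0 := by
    intro t h0
    have h1 : d (t + -t) = d t * d (-t) := hdadd t (-t)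
    rw [add_neg_cancel, hd0, h0, zero_mul] at h1
    exact one_ne_zero h1
  let D : A →+ Additive Qbarˣ :=
    { toFun := fun t => Additive.ofMul (Units.mk0 (d t) (hunit t))
      map_zero' := by
        apply Additive.toMul.injective
        apply Units.ext
        simp [hd0]
      map_add' := fun a b => by
        apply Additive.toMul.injective
        apply Units.ext
        simp [hdadd] }
  have := h D
  simpa [D] using this

/-- the same in the shape of the `hlab` of `S15/G/CoarseJ`: an integer `n` with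
`n ≡ cycloChar P s mod P` and `y = n • x` -/
theorem exists_int_smul_of_forall_char {A : Type*} [AddCommGroup A] [Finite A] {k : ℕ}
    (hk : 0 < k) (hA : ∀ t : A, P ^ k • t = 0) (s : GQ) (x y : A)
    (h : ∀ d : A →+ Additive Qbarˣ,
      ((Additive.toMul (d y) : Qbarˣ) : Qbar) = s ((Additive.toMul (d x) : Qbarˣ) : Qbar)) :
    ∃ n : ℤ, ((n : ℤ) : ZMod P) = ((ExtCitation.cycloChar P s : (ZMod P)ˣ) : ZMod P) ∧
      y = n • x := by
  refine ⟨(cycExp P k s : ℤ), ?_, ?_⟩
  · rw [Int.cast_natCast]
    exact natCast_cycExp P hk s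
  · rw [natCast_zsmul]
    exact eq_cycExp_nsmul_of_forall_char hA s x y h

end Cyc

end Fermat.Agent.S15.P.CycAct
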