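import Fermat.Agent.S15.P.CycAct
import Fermat.Agent.S15.P.GkChain

/-!
# PROJECT M (S15), block (K-P), leaf `(Q5a)` (helper16)

**The inertia group at `P` acts on `G0red` through the `P`-adic cyclotomic character**, in the
`ρ`-form consumed by `(S-g)` / `(KP-id)`:

  `∀ τ ∈ Iq P, ∀ x ∈ G0red N P k S,`
  `   (Gk N P k S).ρ τ x = ((cyc P τ : ℤ_[P]).toZModPow k).val • x`,

with `cyc` the `P`-adic cyclotomic character of main (`S30/Algebra/Cyclotomic.cyc`, the character of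
`S35/DetCyc`).  The engine is helper18's `GkChain.hcyc_Gk_of_flag` (the characters of `Gk` are
inertia-equivariant on `G0red`, from any Galois-stable flag with layers of order `P`) and the
junction `CycAct.eq_cycExp_nsmul_of_forall_char` (characters detect the cyclotomic action).

* `rho_eq_cycExp_nsmul_of_hcyc` : the abstract statement (any representation killed by `P ^ j`, the
  hypothesis `hcyc` of `S15/D/Greenberg` in its literal form);
* `pow_nsmul_Gk` : `Gk` is killed by `P ^ k`;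
* `rho_eq_cycExp_nsmul_of_hcyc_Gk` : `(Q5a)` for `(Gk, G0red)` from `hcyc`;
* `rho_eq_cyc_nsmul` : `(Q5a)` for `(Gk, G0red)` from an unlabelled flag, the literal above;
* `rho_eq_int_smul` : the same with an integer `n ≡ cycloChar P τ mod P`.
-/

set_option autoImplicit false

noncomputable section

namespace Fermat.Agent.S15.P.Q5a

open Fermat.Agent.S30.Algebra.Cyclotomic Fermat.Agent.S15.P.CycAct
open Fermat.Agent.S15.K.Star Fermat.Agent.S15.K.Ord Fermat.Agent.S15.K.Count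
open Fermat.Agent.S56.Coh Fermat.Agent.CFT.LocalBridge

local notation "Qbar" => AlgebraicClosure ℚ
local notation "GQ" => (AlgebraicClosure ℚ ≃ₐ[ℚ] AlgebraicClosure ℚ)

variable {P : ℕ} [Fact P.Prime]

/-- **(Q5a), abstract form.**  If the characters of `A` are `I`-equivariant on `A0` (the `hcyc` of
`S15/D/Greenberg`, literal form), and `A` is finite and killed by `P ^ j`, then `I` acts on `A0`
through the `P`-adic cyclotomic character. -/
theorem rho_eq_cycExp_nsmul_of_hcyc {R : Type} [CommRing R] {A : Rep.{0} R GQ} [Finite A]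
    {A0 : Submodule R A} {I : Subgroup GQ} {j : ℕ} (hA : ∀ a : A, (P ^ j) • a = 0)
    (hcyc : ∀ s ∈ I, ∀ a ∈ A0, ∀ d : A →+ Additive Qbarˣ,
      ((Additive.toMul (d (A.ρ s a)) : Qbarˣ) : Qbar) = s ((Additive.toMul (d a) : Qbarˣ) : Qbar))
    (s : GQ) (hs : s ∈ I) (a : A) (ha : a ∈ A0) :
    A.ρ s a = cycExp P j s • a :=
  eq_cycExp_nsmul_of_forall_char hA s a (A.ρ s a) fun d => hcyc s hs a ha d

variable {N : ℕ} [NeZero N] {k : ℕ} {S : Set ℕ}

omit [Fact P.Prime] in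
/-- `Gk` is killed by `P ^ k`. -/
theorem pow_nsmul_Gk (a : Gk N P k S) : (P ^ k) • a = 0 := by
  have h : ((P ^ k : ℕ) : ZMod (P ^ k)) • a = 0 := by
    rw [ZMod.natCast_self, zero_smul]
  rwa [Nat.cast_smul_eq_nsmul] at h

/-- **(Q5a) for `(Gk, G0red)` from `hcyc`.** -/
theorem rho_eq_cycExp_nsmul_of_hcyc_Gk
    (hcyc : ∀ s ∈ Iq P, ∀ a ∈ G0red N P k S, ∀ d : Gk N P k S →+ Additive Qbarˣ,
      ((Additive.toMul (d ((Gk N P k S).ρ s a)) : Qbarˣ) : Qbar) =
        s ((Additive.toMul (d a) : Qbarˣ) : Qbar))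
    (τ : GQ) (hτ : τ ∈ Iq P) (x : Gk N P k S) (hx : x ∈ G0red N P k S) :
    (Gk N P k S).ρ τ x = ((((cyc P τ : ℤ_[P]ˣ) : ℤ_[P]).toZModPow k).val : ℕ) • x := by
  have hPk : NeZero (P ^ k) := ⟨pow_ne_zero _ (Fact.out : P.Prime).ne_zero⟩
  have hfin : Finite (Gk N P k S) := finite_Gk
  exact rho_eq_cycExp_nsmul_of_hcyc (P := P) (j := k) pow_nsmul_Gk hcyc τ hτ x hx

/-- **(Q5a)**: the inertia group at `P` acts on `G0red` through the `P`-adic cyclotomic character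
of main, from any Galois-stable flag of `Gk` with layers of order `P`. -/
theorem rho_eq_cyc_nsmul (hPN : ¬ P ∣ N)
    (hflag : ∃ n : ℕ, ∃ F : ℕ → Submodule (ZMod (P ^ k)) (Gk N P k S), F 0 = ⊥ ∧ F n = ⊤ ∧
      (∀ m, F m ≤ F (m + 1)) ∧
      (∀ (m : ℕ) (s : GQ), ∀ u ∈ F m, (Gk N P k S).ρ s u ∈ F m) ∧
      ∀ m < n, Nat.card (F (m + 1)) = P * Nat.card (F m))
    (τ : GQ) (hτ : τ ∈ Iq P) (x : Gk N P k S) (hx : x ∈ G0red N P k S) :
    (Gk N P k S).ρ τ x = ((((cyc P τ : ℤ_[P]ˣ) : ℤ_[P]).toZModPow k).val : ℕ) • x :=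
  rho_eq_cycExp_nsmul_of_hcyc_Gk
    (fun s hs a ha d => Fermat.Agent.S15.P.GkChain.hcyc_Gk_of_flag hPN hflag s hs a ha d) τ hτ x hx

/-- the same with an integer lifting the mod `P` cyclotomic character of the prelude -/
theorem rho_eq_int_smul (hk : 0 < k) (hPN : ¬ P ∣ N)
    (hflag : ∃ n : ℕ, ∃ F : ℕ → Submodule (ZMod (P ^ k)) (Gk N P k S), F 0 = ⊥ ∧ F n = ⊤ ∧
      (∀ m, F m ≤ F (m + 1)) ∧
      (∀ (m : ℕ) (s : GQ), ∀ u ∈ F m, (Gk N P k S).ρ s u ∈ F m) ∧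
      ∀ m < n, Nat.card (F (m + 1)) = P * Nat.card (F m))
    (τ : GQ) (hτ : τ ∈ Iq P) (x : Gk N P k S) (hx : x ∈ G0red N P k S) :
    ∃ n : ℤ, ((n : ℤ) : ZMod P) = ((ExtCitation.cycloChar P τ : (ZMod P)ˣ) : ZMod P) ∧
      (Gk N P k S).ρ τ x = n • x := by
  refine ⟨(cycExp P k τ : ℤ), ?_, ?_⟩
  · rw [Int.cast_natCast]
    exact natCast_cycExp P hk τ
  · rw [natCast_zsmul]
    exact rho_eq_cyc_nsmul hPN hflag τ hτ x hx

end Fermat.Agent.S15.P.Q5a
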