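/-
PROJECT M (S15), block (K-P) (helper18): FROM THE INTEGRALITY OF THE NORMALISED INTEGRAL TO THE
CHARACTERS OF A FUNCTION-LEVEL HOPF ORDER.

Frame of main's `S32/HopfClosure` (`R` a PID with fraction field `F`, the fixed field of the
operators `κ σ` of `K`), plus a valuation ring `O` of `K` containing the image of `R` and such that
`κ σ x - x` is a non-unit of `O` for every `x ∈ O` (inertia).  Let `H` be a Hopf order on the finite
abelian group `T` such that `|T|⁻¹ ∑ₜ f t ∈ O` for every `f ∈ H` (`hInt`).  Then for every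
multiplicative `d : T → K`:

* `exists_integral_coeff` : `d` is an `O`-linear combination of elements of `H`;
* `fourier_mem`           : `|T|⁻¹ ∑ₜ f t * (d t)⁻¹ ∈ O` for every `f ∈ H`;
* `char_equivariant`      : `κ σ (d t) = d (act σ t)`.
-/
import Fermat.Agent.S32.HopfClosure

set_option autoImplicit false
set_option linter.unusedSectionVars false

namespace Fermat.Agent.S15.P.CharsInt

open Fermat.Agent.S32.HopfClosure
open scoped BigOperators

section Basis

variable {R F K Γ : Type*} [CommRing R] [IsDomain R] [IsPrincipalIdealRing R]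
  [Field F] [Field K] [Algebra R F] [IsFractionRing R F] [Algebra F K] [Algebra R K]
  [IsScalarTower R F K] {κ : Γ → K →+* K}
  {T : Type*} [AddCommGroup T] [Fintype T]

/-- An `R`-basis of a Hopf order is a `K`-basis of the space of all functions. -/
theorem exists_basis (hfix : ∀ x : K, (∀ σ, κ σ x = x) → x ∈ Set.range (algebraMap F K))
    {act : Γ → T → T} {H : Subalgebra R (T → K)} (hH : IsHopfOrder κ act H)
    (hact : ∀ σ, Function.Surjective (act σ)) :
    ∃ (n : ℕ) (h : Fin n → T → K), LinearIndependent K h ∧ (∀ j, h j ∈ H) ∧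
      (∀ b ∈ H, ∃ r : Fin n → R, b = ∑ j, r j • h j) ∧
      ∀ φ : T → K, ∃ c : Fin n → K, ∀ t, φ t = ∑ j, c j * h j t := by
  classical
  have : FaithfulSMul R K := FaithfulSMul.trans R F K
  have hfgH : (Subalgebra.toSubmodule H).FG := (fg_toSubmodule_iff H).2 hH.fg
  obtain ⟨n, h, hhR, hhmem, hhexp⟩ := exists_basis_family (Subalgebra.toSubmodule H) hfgH
  have hhK : LinearIndependent K h :=
    linearIndependent_of_equivariant_of_isFractionRing hfix hact hhR
      (fun j σ x => hH.equiv _ (hhmem j) σ x)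
  refine ⟨n, h, hhK, hhmem, hhexp, fun φ => ?_⟩
  have hle : Submodule.span K (H : Set (T → K)) ≤ Submodule.span K (Set.range h) := by
    refine Submodule.span_le.2 fun b hb => ?_
    obtain ⟨r, rfl⟩ := hhexp b hb
    refine Submodule.sum_mem _ fun j _ => ?_
    have : r j • h j = algebraMap R K (r j) • h j := by
      funext t
      simp [Algebra.smul_def]
    rw [this]
    exact Submodule.smul_mem _ _ (Submodule.subset_span ⟨j, rfl⟩)
  have hφ : φ ∈ Submodule.span K (Set.range h) := by
    have : φ = ∑ t, φ t • (Pi.single t (1 : K) : T → K) := by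
      funext x
      simp [Finset.sum_apply, Pi.single_apply]
    rw [this]
    exact Submodule.sum_mem _ fun t _ =>
      Submodule.smul_mem _ _ (hle (single_mem_span H hH.sep t))
  obtain ⟨c, hc⟩ := (Submodule.mem_span_range_iff_exists_fun K).1 hφ
  refine ⟨c, fun t => ?_⟩
  rw [← hc]
  simp [Finset.sum_apply]

/-- Comparison of coefficients against a `K`-independent family. -/
theorem coeff_ext {n : ℕ} {h : Fin n → T → K} (hh : LinearIndependent K h) {c c' : Fin n → K}
    (hc : ∀ t, ∑ j, c j * h j t = ∑ j, c' j * h j t) (j : Fin n) : c j = c' j := by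
  have h0 : ∑ j, (c j - c' j) • h j = 0 := by
    funext t
    simp only [Finset.sum_apply, Pi.smul_apply, smul_eq_mul, sub_mul, Finset.sum_sub_distrib,
      Pi.zero_apply, hc t, sub_self]
  exact sub_eq_zero.1 (Fintype.linearIndependent_iff.1 hh _ h0 j)

/-- The structure constants of the comultiplication in a basis. -/
theorem exists_structure_constants {act : Γ → T → T} {H : Subalgebra R (T → K)}
    (hH : IsHopfOrder κ act H) {n : ℕ} (h : Fin n → T → K) (hmem : ∀ j, h j ∈ H)
    (hexp : ∀ b ∈ H, ∃ r : Fin n → R, b = ∑ j, r j • h j) :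
    ∃ C : Fin n → Fin n → Fin n → R, ∀ j s t,
      h j (s + t) = ∑ b, (∑ a, algebraMap R K (C j b a) * h a s) * h b t := by
  have key : ∀ j, ∃ C : Fin n → Fin n → R, ∀ s t,
      h j (s + t) = ∑ b, (∑ a, algebraMap R K (C b a) * h a s) * h b t := by
    intro j
    obtain ⟨g, hg, hgj⟩ := (hH.comul (h j) (hmem j)).expand h hexp
    choose r hr using fun b => hexp (g b) (hg b)
    refine ⟨r, fun s t => ?_⟩
    rw [hgj]
    refine Finset.sum_congr rfl fun b _ => ?_
    rw [hr b, Finset.sum_apply]
    congr 1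
    refine Finset.sum_congr rfl fun a _ => ?_
    simp [Algebra.smul_def]
  choose C hC using key
  exact ⟨C, hC⟩

end Basis

section Chars

variable {R F K Γ : Type*} [CommRing R] [IsDomain R] [IsPrincipalIdealRing R]
  [Field F] [Field K] [Algebra R F] [IsFractionRing R F] [Algebra F K] [Algebra R K]
  [IsScalarTower R F K] {κ : Γ → K →+* K}
  {T : Type*} [AddCommGroup T] [Fintype T]

/-- **(O2)** In a basis of a Hopf order, a multiplicative function has coefficients in every
valuation ring containing the image of `R`. -/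
theorem coeff_mem (O : ValuationSubring K) (hRO : ∀ r : R, algebraMap R K r ∈ O)
    {act : Γ → T → T} {H : Subalgebra R (T → K)} (hH : IsHopfOrder κ act H)
    {n : ℕ} (h : Fin n → T → K) (hhK : LinearIndependent K h) (hmem : ∀ j, h j ∈ H)
    (hexp : ∀ b ∈ H, ∃ r : Fin n → R, b = ∑ j, r j • h j)
    {d : T → K} (hd : ∀ s t, d (s + t) = d s * d t) {δ : Fin n → K}
    (hδ : ∀ t, d t = ∑ j, δ j * h j t) (j : Fin n) : δ j ∈ O := by
  classical
  obtain ⟨C, hC⟩ := exists_structure_constants hH h hmem hexp
  -- the quadratic relations between the coefficients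
  have h1 : ∀ s b, ∑ j, δ j * ∑ a, algebraMap R K (C j b a) * h a s = d s * δ b := by
    intro s
    refine coeff_ext hhK fun t => ?_
    have e1 : ∑ b, (d s * δ b) * h b t = d (s + t) := by
      rw [hd, hδ t, Finset.mul_sum]
      exact Finset.sum_congr rfl fun b _ => by ring
    rw [e1, hδ (s + t)]
    have e2 : ∀ j, δ j * h j (s + t) =
        ∑ b, (δ j * ∑ a, algebraMap R K (C j b a) * h a s) * h b t := by
      intro j
      rw [hC, Finset.mul_sum]
      exact Finset.sum_congr rfl fun b _ => by ring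
    simp only [e2]
    rw [Finset.sum_comm]
    exact Finset.sum_congr rfl fun b _ => by rw [Finset.sum_mul]
  have h2 : ∀ a b, ∑ j, δ j * algebraMap R K (C j b a) = δ a * δ b := by
    intro a b
    have := coeff_ext hhK (c := fun a => ∑ j, δ j * algebraMap R K (C j b a))
      (c' := fun a => δ a * δ b) (fun s => ?_) a
    · exact this
    · have e3 : ∑ a, (δ a * δ b) * h a s = d s * δ b := by
        rw [hδ s, Finset.sum_mul]
        exact Finset.sum_congr rfl fun a _ => by ring
      rw [e3, ← h1 s b]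
      simp only [Finset.mul_sum, Finset.sum_mul]
      rw [Finset.sum_comm]
      exact Finset.sum_congr rfl fun j _ => Finset.sum_congr rfl fun a _ => by ring
  -- the coefficient of maximal valuation is integral
  by_contra hj
  obtain ⟨a, -, ha⟩ := Finset.exists_max_image Finset.univ (fun a => O.valuation (δ a))
    ⟨j, Finset.mem_univ j⟩
  have hgt : 1 < O.valuation (δ a) := by
    have h3 : 1 < O.valuation (δ j) := by
      rw [← not_le]
      exact fun hle => hj ((O.valuation_le_one_iff _).1 hle)
    exact lt_of_lt_of_le h3 (ha j (Finset.mem_univ j))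
  have hle : O.valuation (δ a) * O.valuation (δ a) ≤ O.valuation (δ a) := by
    rw [← map_mul, ← h2 a a]
    refine Valuation.map_sum_le _ fun i _ => ?_
    rw [map_mul]
    calc O.valuation (δ i) * O.valuation (algebraMap R K (C i a a))
        ≤ O.valuation (δ a) * 1 :=
          mul_le_mul' (ha i (Finset.mem_univ i)) ((O.valuation_le_one_iff _).2 (hRO _))
      _ = O.valuation (δ a) := mul_one _
  have hpos : 0 < O.valuation (δ a) := lt_trans zero_lt_one hgt
  have hlt : O.valuation (δ a) * 1 < O.valuation (δ a) * O.valuation (δ a) :=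
    mul_lt_mul_of_pos_left hgt hpos
  rw [mul_one] at hlt
  exact absurd hle (not_le.2 hlt)

/-- **(E2)** Every multiplicative function is an `O`-linear combination of elements of `H`. -/
theorem exists_integral_coeff
    (hfix : ∀ x : K, (∀ σ, κ σ x = x) → x ∈ Set.range (algebraMap F K))
    (O : ValuationSubring K) (hRO : ∀ r : R, algebraMap R K r ∈ O)
    {act : Γ → T → T} {H : Subalgebra R (T → K)} (hH : IsHopfOrder κ act H)
    (hact : ∀ σ, Function.Surjective (act σ))
    {d : T → K} (hd : ∀ s t, d (s + t) = d s * d t) :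
    ∃ (n : ℕ) (δ : Fin n → K) (h : Fin n → T → K), (∀ j, δ j ∈ O) ∧ (∀ j, h j ∈ H) ∧
      ∀ t, d t = ∑ j, δ j * h j t := by
  obtain ⟨n, h, hhK, hmem, hexp, hspan⟩ := exists_basis hfix hH hact
  obtain ⟨δ, hδ⟩ := hspan d
  exact ⟨n, δ, h, fun j => coeff_mem O hRO hH h hhK hmem hexp hd hδ j, hmem, hδ⟩

/-- The normalised integral is `O`-valued on `O`-linear combinations of elements of `H`, after
multiplication by an element of `H`. -/
theorem int_mul_mem (O : ValuationSubring K) {H : Subalgebra R (T → K)}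
    (hInt : ∀ f ∈ H, (Fintype.card T : K)⁻¹ * ∑ t, f t ∈ O)
    {n : ℕ} {δ : Fin n → K} {h : Fin n → T → K} (hδO : ∀ j, δ j ∈ O) (hmem : ∀ j, h j ∈ H)
    {e : T → K} (he : ∀ t, e t = ∑ j, δ j * h j t) {f : T → K} (hf : f ∈ H) :
    (Fintype.card T : K)⁻¹ * ∑ t, f t * e t ∈ O := by
  have : (Fintype.card T : K)⁻¹ * ∑ t, f t * e t =
      ∑ j, δ j * ((Fintype.card T : K)⁻¹ * ∑ t, (f * h j) t) := by
    simp only [he, Finset.mul_sum, Pi.mul_apply]
    rw [Finset.sum_comm]
    exact Finset.sum_congr rfl fun j _ => Finset.sum_congr rfl fun t _ => by ring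
  rw [this]
  exact O.toSubring.sum_mem fun j _ => O.mul_mem _ _ (hδO j) (hInt _ (H.mul_mem hf (hmem j)))

/-- **(E1)** The Fourier coefficients of the elements of `H` are integral. -/
theorem fourier_mem
    (hfix : ∀ x : K, (∀ σ, κ σ x = x) → x ∈ Set.range (algebraMap F K))
    (O : ValuationSubring K) (hRO : ∀ r : R, algebraMap R K r ∈ O)
    {act : Γ → T → T} {H : Subalgebra R (T → K)} (hH : IsHopfOrder κ act H)
    (hact : ∀ σ, Function.Surjective (act σ))
    (hInt : ∀ f ∈ H, (Fintype.card T : K)⁻¹ * ∑ t, f t ∈ O)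
    {d : T → K} (hd : ∀ s t, d (s + t) = d s * d t) {f : T → K} (hf : f ∈ H) :
    (Fintype.card T : K)⁻¹ * ∑ t, f t * (d t)⁻¹ ∈ O := by
  obtain ⟨n, δ, h, hδO, hmem, hδ⟩ := exists_integral_coeff hfix O hRO hH hact
    (d := fun t => (d t)⁻¹) (fun s t => by simp only [hd, mul_inv])
  exact int_mul_mem O hInt hδO hmem hδ hf

/-- The sum of the values of a non-trivial multiplicative function vanishes. -/
theorem sum_eq_zero_of_ne_one {χ : T → K} (hχ : ∀ s t, χ (s + t) = χ s * χ t) {s : T}
    (hs : χ s ≠ 1) : ∑ t, χ t = 0 := by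
  have h1 : ∑ t, χ t = χ s * ∑ t, χ t := by
    rw [Finset.mul_sum]
    rw [← Equiv.sum_comp (Equiv.addLeft s) χ]
    exact Finset.sum_congr rfl fun t _ => by rw [Equiv.coe_addLeft, hχ]
  have h2 : (1 - χ s) * ∑ t, χ t = 0 := by
    rw [sub_mul, one_mul, ← h1, sub_self]
  rcases mul_eq_zero.1 h2 with h | h
  · exact absurd (sub_eq_zero.1 h).symm hs
  · exact h

/-- **(E3)** Every multiplicative function is equivariant. -/
theorem char_equivariant
    (hfix : ∀ x : K, (∀ σ, κ σ x = x) → x ∈ Set.range (algebraMap F K))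
    (O : ValuationSubring K) (hRO : ∀ r : R, algebraMap R K r ∈ O)
    (hm : ∀ x ∈ O, ∀ σ, O.valuation (κ σ x - x) < 1)
    {act : Γ → T → T} {H : Subalgebra R (T → K)} (hH : IsHopfOrder κ act H)
    (hbij : ∀ σ, Function.Bijective (act σ))
    (hadd : ∀ σ s t, act σ (s + t) = act σ s + act σ t)
    (hn : (Fintype.card T : K) ≠ 0)
    (hInt : ∀ f ∈ H, (Fintype.card T : K)⁻¹ * ∑ t, f t ∈ O)
    {d : T → K} (hd : ∀ s t, d (s + t) = d s * d t) (hd0 : d 0 = 1) (σ : Γ) (t : T) :
    κ σ (d t) = d (act σ t) := by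
  classical
  have hact : ∀ σ, Function.Surjective (act σ) := fun σ => (hbij σ).2
  set e : T ≃ T := Equiv.ofBijective (act σ) (hbij σ) with he
  have he_apply : ∀ t, e t = act σ t := fun t => rfl
  have hesymm : ∀ s t, e.symm (s + t) = e.symm s + e.symm t := by
    intro s t
    apply e.injective
    rw [e.apply_symm_apply, he_apply, hadd, ← he_apply, ← he_apply, e.apply_symm_apply,
      e.apply_symm_apply]
  -- the conjugate character
  set d' : T → K := fun t => κ σ (d (e.symm t)) with hd'def
  have hd' : ∀ s t, d' (s + t) = d' s * d' t := by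
    intro s t
    simp only [hd'def, hesymm, hd, map_mul]
  have hd'act : ∀ t, d' (act σ t) = κ σ (d t) := by
    intro t
    simp only [hd'def]
    rw [← he_apply, e.symm_apply_apply]
  have hdne : ∀ t, d t ≠ 0 := by
    intro t h0
    have : d (t + -t) = 0 := by rw [hd, h0, zero_mul]
    rw [add_neg_cancel, hd0] at this
    exact one_ne_zero this
  have hd'ne : ∀ t, d' t ≠ 0 := by
    intro t
    simp only [hd'def]
    exact (map_ne_zero (κ σ)).2 (hdne _)
  -- it is enough to show that `d' = d`
  suffices hdd : d' = d by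
    rw [← hd'act, hdd]
  by_contra hne
  -- the Fourier coefficients at `d'` and at `d` are congruent
  have hA : ∀ f ∈ H, O.valuation ((Fintype.card T : K)⁻¹ * ∑ t, f t * (d' t)⁻¹ -
      (Fintype.card T : K)⁻¹ * ∑ t, f t * (d t)⁻¹) < 1 := by
    intro f hf
    have h1 : κ σ ((Fintype.card T : K)⁻¹ * ∑ t, f t * (d t)⁻¹) =
        (Fintype.card T : K)⁻¹ * ∑ t, f t * (d' t)⁻¹ := by
      rw [map_mul, map_inv₀, map_natCast, map_sum]
      congr 1
      rw [← Equiv.sum_comp e (fun t => f t * (d' t)⁻¹)]
      refine Finset.sum_congr rfl fun t _ => ?_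
      rw [map_mul, map_inv₀, he_apply, hd'act, hH.equiv f hf]
    rw [← h1]
    exact hm _ (fourier_mem hfix O hRO hH hact hInt hd hf) σ
  -- extend to `O`-linear combinations, in particular to `d'` itself
  obtain ⟨n, δ, h, hδO, hmem, hδ⟩ := exists_integral_coeff hfix O hRO hH hact hd'
  have hB : O.valuation ((Fintype.card T : K)⁻¹ * ∑ t, d' t * (d' t)⁻¹ -
      (Fintype.card T : K)⁻¹ * ∑ t, d' t * (d t)⁻¹) < 1 := by
    have : (Fintype.card T : K)⁻¹ * ∑ t, d' t * (d' t)⁻¹ -
        (Fintype.card T : K)⁻¹ * ∑ t, d' t * (d t)⁻¹ =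
        ∑ j, δ j * ((Fintype.card T : K)⁻¹ * ∑ t, h j t * (d' t)⁻¹ -
          (Fintype.card T : K)⁻¹ * ∑ t, h j t * (d t)⁻¹) := by
      simp only [hδ, Finset.mul_sum, Finset.sum_mul, mul_sub, Finset.sum_sub_distrib]
      congr 1
      · rw [Finset.sum_comm]
        exact Finset.sum_congr rfl fun j _ => Finset.sum_congr rfl fun t _ => by ring
      · rw [Finset.sum_comm]
        exact Finset.sum_congr rfl fun j _ => Finset.sum_congr rfl fun t _ => by ring
    rw [this]
    refine Valuation.map_sum_lt _ one_ne_zero fun j _ => ?_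
    rw [map_mul]
    calc O.valuation (δ j) * O.valuation _ ≤ 1 * O.valuation _ :=
          mul_le_mul' ((O.valuation_le_one_iff _).2 (hδO j)) le_rfl
      _ = O.valuation _ := one_mul _
      _ < 1 := hA _ (hmem j)
  -- but the difference is `1`
  have h1 : (Fintype.card T : K)⁻¹ * ∑ t, d' t * (d' t)⁻¹ = 1 := by
    have : ∀ t, d' t * (d' t)⁻¹ = 1 := fun t => mul_inv_cancel₀ (hd'ne t)
    simp only [this, Finset.sum_const, Finset.card_univ, nsmul_eq_mul, mul_one]
    exact inv_mul_cancel₀ hn
  have h0 : ∑ t, d' t * (d t)⁻¹ = 0 := by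
    obtain ⟨s, hs⟩ : ∃ s, d' s ≠ d s := by
      by_contra hall
      exact hne (funext fun t => not_not.1 fun h => hall ⟨t, h⟩)
    refine sum_eq_zero_of_ne_one (χ := fun t => d' t * (d t)⁻¹) (s := s) (fun s t => ?_) ?_
    · simp only [hd', hd, mul_inv]
      ring
    · intro h
      apply hs
      have := congrArg (· * d s) h
      simp only [one_mul] at this
      rwa [mul_assoc, inv_mul_cancel₀ (hdne s), mul_one] at this
  rw [h1, h0, mul_zero, sub_zero, map_one] at hB
  exact lt_irrefl _ hB

end Chars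

end Fermat.Agent.S15.P.CharsInt
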